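import Fermat.Agent.S37x.Move.H17_Inert
import Fermat.Agent.S18x.E.H12_Div
import Fermat.Agent.S24.H15_Fin

/-!
# S37, package [MOVE] (ii): inertia invariance, hypothesis-free side inputs (helper17)

The two side inputs of `h17_inert` (`HasPrincipalDivisors`, existence of `j`-values at the
places where `j` is regular) are theorems of the S24 / S18 libraries.
-/

set_option autoImplicit false
set_option synthInstance.maxHeartbeats 400000
set_option maxHeartbeats 1000000

open HahnSeries IntermediateField AlgebraicCurve ModularCurve

noncomputable section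

namespace Fermat.Agent.S37x.Move.H17

open Fermat.Agent.S37x.Asm

/-- In a function field of one variable over an algebraically closed field of characteristic
zero, a function which is regular at a place has a value there. -/
theorem h17_exists_val {K F : Type*} [Field K] [Field F] [Algebra K F] [CharZero K]
    [IsAlgClosed K] (x : F) [FiniteDimensional K⟮x⟯ F] (P : Place K F) (f : F)
    (hf : ∀ c : K, f ≠ algebraMap K F c) (h : 0 ≤ P.ord f) :
    ∃ a : K, 0 < P.ord (f - algebraMap K F a) := by
  have hres := Fermat.Agent.S24.RH.residueTrivial_place x P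
  have hmem : f ∈ P.toValuationSubring := (Fermat.Agent.S24.RH.ord_nonneg_iff P).mp h
  obtain ⟨c, hc⟩ := hres ⟨f, hmem⟩
  refine ⟨c, ?_⟩
  have h0 : (⟨f, hmem⟩ - algebraMap K P.toValuationSubring c : P.toValuationSubring) ≠ 0 := by
    intro h0
    have h0' := congrArg Subtype.val h0
    simp only [AddSubgroupClass.coe_sub, ZeroMemClass.coe_zero, Place.coe_algebraMap] at h0'
    exact hf c (sub_eq_zero.mp h0')
  have := Fermat.Agent.S24.RH.ord_pos_of_mem_maximalIdeal P hc h0
  simpa only [AddSubgroupClass.coe_sub, Place.coe_algebraMap] using this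

variable (N : ℕ) [NeZero N]

omit [NeZero N] in
theorem h17_jL_eq : jL N = Fermat.Agent.S24.Final.jF (AlgebraicClosure ℚ) N := by
  refine Subtype.ext ?_
  show jqModC (AlgebraicClosure ℚ) = coeffEmb (AlgebraicClosure ℚ) jq
  exact (coeffMap_jqModC (R := ℚ) _).symm

/-- `j` has a value at every place where it is regular. -/
theorem h17_hval (P : Place (AlgebraicClosure ℚ) (modularFunctionFieldBar N))
    (h : 0 ≤ P.ord (jL N)) : ∃ a : AlgebraicClosure ℚ, JAt P a := by
  have := Fermat.Agent.S24.Final.finiteDimensional_jF (K := AlgebraicClosure ℚ)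
    Fermat.Agent.S18x.E.H12.h12_embQbar N
  have ht := Fermat.Agent.S24.Final.transcendental_jF (AlgebraicClosure ℚ) N
  refine h17_exists_val (Fermat.Agent.S24.Final.jF (AlgebraicClosure ℚ) N) P (jL N) ?_ h
  intro c hc
  rw [h17_jL_eq] at hc
  rw [hc] at ht
  exact ht (isAlgebraic_algebraMap c)

variable {N} in
/-- **[INERT]**: a place reduction with `[U1]` and `[SEP]` is invariant under inertia. -/
theorem h17_inert_top {A : ValuationSubring (AlgebraicClosure ℚ)}
    (r : Place (AlgebraicClosure ℚ) (modularFunctionFieldBar N) →
      Place (IsLocalRing.ResidueField A)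
        (modularFunctionFieldFullC (IsLocalRing.ResidueField A) N))
    (hr : IsPlaceReductionModL A N r)
    (hgen : PrincipalGeneratedByIntegral A (IsLocalRing.residue A) N)
    (hU1 : StU1 A r) (hSep : StSep A r) :
    ∀ τ ∈ A.inertiaSubgroupIn ℚ,
      ∀ P : Place (AlgebraicClosure ℚ) (modularFunctionFieldBar N),
        r (arithmeticGalois (modularFunctionFieldFull N) τ • P) = r P := by
  intro τ hτ P
  have := Fermat.Agent.S18x.E.H12.h12_hasPrincipalDivisors_bar N
  exact h17_inert r (h17_hval N) hr hgen hU1 hSep τ hτ P

end Fermat.Agent.S37x.Move.H17
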