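import Fermat.Agent.S37x.Move.H17_EsDeltaTop
import Fermat.Agent.S37x.Move.H17_InertTop
import Fermat.Agent.S37x.Asm.H14_Red
import Fermat.Agent.S37x.Asm.H14_Top
import Fermat.Agent.S37x.Asm.H12_InjFinal
import Fermat.Agent.S37x.FFk.H19_RedN
import Fermat.Agent.S54.Frobenius

/-!
# S37, route N (helper17): the frozen statement from the place reduction at ONE auxiliary level

Everything is at level `N`; the only open input is `[RED-M]` in the form
`Asm.StRedOne M A` at an auxiliary level `M` (`N ∣ M`, `ℓ ∤ M`).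

* `h17_pullbackAlong_self` : the pull-back of divisors along `incL N N` is the identity;
* `h17_stES_N`       : `Asm.StES N ℓ A r σ₀` for ANY place reduction `r` at level `N` with `[U1]`,
  `[SEP]` and any Frobenius element `σ₀` (from `h17_esDelta_zero` at `M = N`);
* `h17_stRedES_N`    : `Asm.StRed N A → Asm.StRedES N ℓ A`;
* `h17_stSpec_of_red`: `(∀ ℓ A, Asm.StRed N A) → Asm.StSpec N p`;
* `h17_result_of_red`, `h17_result_of_redOne` : the frozen statement S37 from `StRed N A`,
  resp. from `StRedOne M A` at the auxiliary levels `M = h18_base ℓ * N`.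
-/

set_option autoImplicit false
set_option synthInstance.maxHeartbeats 400000
set_option maxHeartbeats 1000000
set_option linter.style.haveILetI false
set_option linter.unusedSectionVars false

open HahnSeries IntermediateField AlgebraicCurve ModularCurve

noncomputable section

namespace Fermat.Agent.S37x.Move.H17

open Fermat.Agent.S37x.Asm

variable {N : ℕ} [NeZero N]

/-- The pull-back of divisors along the inclusion `F_N → F_N` is the identity. -/
theorem h17_pullbackAlong_self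
    [HasPrincipalDivisors (AlgebraicClosure ℚ) (modularFunctionFieldBar N)]
    (hint : (incL N N (dvd_refl N)).toRingHom.IsIntegral)
    (D : Divisor (AlgebraicClosure ℚ) (modularFunctionFieldBar N)) :
    Divisor.pullbackAlong (incL N N (dvd_refl N)) hint D = D := by
  letI := algebraAlong (incL N N (dvd_refl N))
  haveI := isScalarTower_along (incL N N (dvd_refl N))
  haveI := isIntegral_along (incL N N (dvd_refl N)) hint
  ext w
  show Divisor.pullback (modularFunctionFieldBar N) D w = D w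
  rw [Divisor.pullback_apply]
  have hres : w.restrict (modularFunctionFieldBar N) = w := by
    apply Place.ext
    ext x
    rfl
  have he : (w.ramificationIndex (modularFunctionFieldBar N) : ℤ) = 1 := by
    obtain ⟨π, hπ⟩ := IsDiscreteValuationRing.exists_irreducible w.toValuationSubring
    have h1 : w.ord (π : modularFunctionFieldBar N) = 1 := w.ord_coe_irreducible hπ
    have h2 := w.ord_restrict (F := modularFunctionFieldBar N) (π : modularFunctionFieldBar N)
    rw [hres] at h2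
    have h3 : algebraMap (modularFunctionFieldBar N) (modularFunctionFieldBar N)
        (π : modularFunctionFieldBar N) = (π : modularFunctionFieldBar N) := rfl
    rw [h3, h1, mul_one] at h2
    exact h2.symm
  rw [hres, he, one_mul]

variable {ℓ : ℕ} [NeZero ℓ]

/-- **[ES] at level `N`**, for ANY place reduction with `[U1]` and `[SEP]`. -/
theorem h17_stES_N (hℓ : ℓ.Prime) (hℓN : ¬ ℓ ∣ N)
    (A : ValuationSubring (AlgebraicClosure ℚ)) (hA : A.LiesOverPrime ℓ)
    (r : Place (AlgebraicClosure ℚ) (modularFunctionFieldBar N) →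
      Place (IsLocalRing.ResidueField A)
        (modularFunctionFieldFullC (IsLocalRing.ResidueField A) N))
    (hr : IsPlaceReductionModL A N r) (hU1 : StU1 A r) (hSep : StSep A r)
    (σ₀ : AlgebraicClosure ℚ ≃ₐ[ℚ] AlgebraicClosure ℚ) (hσ₀ : A.IsFrobeniusAt σ₀ ℓ) :
    StES N ℓ A r σ₀ := by
  obtain ⟨hα, hβ, hP, hfin, hFI, hNF⟩ := Fermat.Agent.S37x.FF.H23.stFF N ℓ
  haveI := Fermat.Agent.S18x.E.H12.h12_hasPrincipalDivisors_bar N
  refine ⟨hα, hβ, hP, hfin, hFI, hNF, fun P => ?_⟩
  have hint := Fermat.Agent.S37x.FFL.H9.h9_incL_isIntegral N N (dvd_refl N)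
  have h0 := h17_esDelta_zero hℓ (dvd_refl N) hℓN A hA r hr hU1 hSep hα hβ hint σ₀ hσ₀
  have h1 := DFunLike.congr_fun h0 (Finsupp.single P 1)
  rw [h14_esDelta_single, h17_pullbackAlong_self, AddMonoidHom.zero_apply,
    ← Finsupp.mapDomain.addMonoidHom_apply, map_sub, map_sub,
    Finsupp.mapDomain.addMonoidHom_apply, Finsupp.mapDomain.addMonoidHom_apply,
    Finsupp.mapDomain.addMonoidHom_apply, Finsupp.mapDomain_single,
    Finsupp.mapDomain_single] at h1
  have h2 := sub_eq_zero.mp h1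
  have h3 := sub_eq_iff_eq_add.mp h2
  rw [h3, add_comm]

/-- **[RED+ES] at level `N`**: `Asm.StRedES` from `Asm.StRed`. -/
theorem h17_stRedES_N (hℓ : ℓ.Prime) (hℓN : ¬ ℓ ∣ N)
    (A : ValuationSubring (AlgebraicClosure ℚ)) (hA : A.LiesOverPrime ℓ)
    (hRed : StRed N A) : StRedES N ℓ A := by
  obtain ⟨r, hr, hgen, hU1, hSep⟩ := hRed
  obtain ⟨σ₀, hσ₀⟩ := Fermat.Agent.S54.exists_isFrobeniusAt A ℓ hℓ hA
  exact ⟨r, hr, hgen, h17_inert_top r hr hgen hU1 hSep, σ₀, hσ₀,
    h17_stES_N hℓ hℓN A hA r hr hU1 hSep σ₀ hσ₀⟩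

variable (N)

/-- **`StSpec N p`** from the place reductions at level `N`. -/
theorem h17_stSpec_of_red (p : ℕ)
    (hRed : ∀ ℓ : ℕ, ℓ.Prime → ¬ ℓ ∣ N * p →
      ∀ A : ValuationSubring (AlgebraicClosure ℚ), A.LiesOverPrime ℓ → StRed N A) :
    StSpec N p := by
  refine stSpec_of N p (fun ℓ hℓ hℓN A hA => ?_) (fun ℓ hℓ hℓNp A hA => ?_)
  · haveI : Fact ℓ.Prime := ⟨hℓ⟩
    exact Fermat.Agent.S37x.Asm.H12.stInj ℓ A N hℓN hA
  · haveI : NeZero ℓ := ⟨hℓ.ne_zero⟩
    exact h17_stRedES_N hℓ (fun h => hℓNp (Dvd.dvd.mul_right h p)) A hA (hRed ℓ hℓ hℓNp A hA)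

/-- **`StSpec N p`** from the place reductions at the auxiliary levels `h18_base ℓ * N`
(`h18_base ℓ ∈ {2, 3}`, `≠ ℓ`). -/
theorem h17_stSpec_of_redOne (p : ℕ)
    (hOne : ∀ ℓ : ℕ, ℓ.Prime → ¬ ℓ ∣ N * p →
      ∀ A : ValuationSubring (AlgebraicClosure ℚ), A.LiesOverPrime ℓ →
        haveI : NeZero (Fermat.Agent.S18x.Asm.h18_base ℓ * N) :=
          Fermat.Agent.S18x.Asm.h18_level_neZero ℓ N
        StRedOne (Fermat.Agent.S18x.Asm.h18_base ℓ * N) A) :
    StSpec N p := by
  refine h17_stSpec_of_red N p fun ℓ hℓ hℓNp A hA => ?_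
  haveI : NeZero (Fermat.Agent.S18x.Asm.h18_base ℓ * N) :=
    Fermat.Agent.S18x.Asm.h18_level_neZero ℓ N
  have hℓN : ¬ ℓ ∣ N := fun h => hℓNp (Dvd.dvd.mul_right h p)
  exact Fermat.Agent.S37x.FFk.H19.h19_stRed_of_redOne A hℓ hA N
    (Fermat.Agent.S18x.Asm.h18_base ℓ * N) (Dvd.intro_left _ rfl)
    (Fermat.Agent.S18x.Asm.h18_not_dvd_level hℓ hℓN) (hOne ℓ hℓ hℓNp A hA)

/-- **S37 (frozen statement) from the place reductions at level `N`.** -/
theorem h17_result_of_red (p : ℕ) (hcomm : ModularCurve.HeckeOperatorsCommuteBar N)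
    (hRed : ∀ ℓ : ℕ, ℓ.Prime → ¬ ℓ ∣ N * p →
      ∀ A : ValuationSubring (AlgebraicClosure ℚ), A.LiesOverPrime ℓ → StRed N A) :
    letI := ModularCurve.heckeModuleBar N
    ∀ (_ : SMulCommClass (AlgebraicClosure ℚ ≃ₐ[ℚ] AlgebraicClosure ℚ) ModularCurve.HeckeAlg
      (ModularCurve.JZero N)),
      ModularCurve.SpecializationExists (K := ℚ) (L := AlgebraicClosure ℚ) N p
        (ModularCurve.JZero N) :=
  result_of N p (h17_stSpec_of_red N p hRed) hcomm

/-- **S37 (frozen statement) from `[RED-M]`** at the auxiliary levels `h18_base ℓ * N`. -/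
theorem h17_result_of_redOne (p : ℕ) (hcomm : ModularCurve.HeckeOperatorsCommuteBar N)
    (hOne : ∀ ℓ : ℕ, ℓ.Prime → ¬ ℓ ∣ N * p →
      ∀ A : ValuationSubring (AlgebraicClosure ℚ), A.LiesOverPrime ℓ →
        haveI : NeZero (Fermat.Agent.S18x.Asm.h18_base ℓ * N) :=
          Fermat.Agent.S18x.Asm.h18_level_neZero ℓ N
        StRedOne (Fermat.Agent.S18x.Asm.h18_base ℓ * N) A) :
    letI := ModularCurve.heckeModuleBar N
    ∀ (_ : SMulCommClass (AlgebraicClosure ℚ ≃ₐ[ℚ] AlgebraicClosure ℚ) ModularCurve.HeckeAlg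
      (ModularCurve.JZero N)),
      ModularCurve.SpecializationExists (K := ℚ) (L := AlgebraicClosure ℚ) N p
        (ModularCurve.JZero N) :=
  result_of N p (h17_stSpec_of_redOne N p hOne) hcomm

end Fermat.Agent.S37x.Move.H17
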