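import Mathlib
import Fermat.Agent.S37x.Move.H17_TopN
import Fermat.Agent.S37x.Red.H22_Base
import Fermat.Agent.S37x.Red.H7_WaK

/-!
# S37 route N, final wiring (helper17): `StSpec N p` and the frozen S37 statement

All inputs are theorems: `[CONS]` (helper7's `h7_cons_two`, `h7_cons_three`), weak approximation
`(ζ-K)` (helper7's `h7_stWAG_two`, `h7_stWAG_three`), the top of `[RED-M]` (helper22's
`stRedOne_base_of`) and the route N top `h17_stSpec_of_redOne` / `h17_result_of_redOne`.

* `h17_redOne_final` : `Asm.StRedOne (h18_base ℓ * N) A` for `ℓ ∤ N`;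
* `h17_stSpec_final` : `Asm.StSpec N p`, hypothesis-free (every `N ≥ 1`, every `p`);
* `h17_result_final` : the frozen S37 statement.
-/

set_option autoImplicit false
set_option linter.unusedSectionVars false
set_option linter.unusedVariables false
set_option linter.style.haveILetI false
set_option synthInstance.maxHeartbeats 400000
set_option maxHeartbeats 4000000

open ModularCurve AlgebraicCurve IntermediateField Polynomial

noncomputable section

namespace Fermat.Agent.S37x.Move.H17

open Fermat.Agent.S37x.Asm Fermat.Agent.S37x.Red.H22 Fermat.Agent.S18x.Asm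

local notation "Lbar" => AlgebraicClosure ℚ

/-- **[RED-M] at the auxiliary level `h18_base ℓ * N`**, hypothesis-free. -/
theorem h17_redOne_final (N : ℕ) [NeZero N] {ℓ : ℕ} (hℓ : ℓ.Prime) (hℓN : ¬ ℓ ∣ N)
    (A : ValuationSubring Lbar) (hA : A.LiesOverPrime ℓ) :
    haveI : NeZero (h18_base ℓ * N) := h18_level_neZero ℓ N
    Asm.StRedOne (h18_base ℓ * N) A :=
  stRedOne_base_of N hℓ hℓN A hA
    (fun M _ hℓM hM hℓ2 => Fermat.Agent.S37x.Red.H7.h7_cons_two A hℓ hA M hℓM hM hℓ2)
    (fun M _ hℓM hM hℓ2 => Fermat.Agent.S37x.Red.H7.h7_stWAG_two A hℓ hA M hℓM hM hℓ2)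
    (fun M _ hℓM hM hℓ3 => Fermat.Agent.S37x.Red.H7.h7_cons_three A hℓ hA M hℓM hM hℓ3)
    (fun M _ hℓM hM hℓ3 => Fermat.Agent.S37x.Red.H7.h7_stWAG_three A hℓ hA M hℓM hM hℓ3)

/-- **`StSpec N p`, hypothesis-free**: for every prime `ℓ ∤ N p` and every place of `ℚ̄` over
`ℓ` the good-reduction specialization data of `J₀(N)` (Eichler–Shimura relation, injectivity on
torsion prime to `ℓ`, triviality of inertia). -/
theorem h17_stSpec_final (N : ℕ) [NeZero N] (p : ℕ) : Asm.StSpec N p :=
  h17_stSpec_of_redOne N p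
    (fun ℓ hℓ hℓNp A hA => h17_redOne_final N hℓ (fun h => hℓNp (h.mul_right p)) A hA)

/-- **The frozen S37 statement.** -/
theorem h17_result_final (N : ℕ) [NeZero N] (p : ℕ)
    (hcomm : ModularCurve.HeckeOperatorsCommuteBar N) :
    letI := ModularCurve.heckeModuleBar N
    ∀ (_ : SMulCommClass (AlgebraicClosure ℚ ≃ₐ[ℚ] AlgebraicClosure ℚ) ModularCurve.HeckeAlg
      (ModularCurve.JZero N)),
      ModularCurve.SpecializationExists (K := ℚ) (L := AlgebraicClosure ℚ) N p
        (ModularCurve.JZero N) :=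
  h17_result_of_redOne N p hcomm
    (fun ℓ hℓ hℓNp A hA => h17_redOne_final N hℓ (fun h => hℓNp (h.mul_right p)) A hA)

end Fermat.Agent.S37x.Move.H17
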