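import Fermat.Agent.S37x.Asm.DefsLeaves
import Fermat.Agent.S37x.Asm.H13_Formal
import Fermat.Agent.S24.H15_Kaehler

/-!
# S37, package [MOVE]: values of `j` at places, Galois action (helper17)

Generic facts on "the value of `x` at a place", and the behaviour of `Asm.JAt`, `Asm.JCusp`,
`Asm.JbarAt` under the arithmetic Galois action.
-/

set_option autoImplicit false
set_option synthInstance.maxHeartbeats 400000
set_option maxHeartbeats 1000000

open HahnSeries IntermediateField AlgebraicCurve ModularCurve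

noncomputable section

namespace Fermat.Agent.S37x.Move.H17

open Fermat.Agent.S37x.Asm

section Generic

variable {K F : Type*} [Field K] [Field F] [Algebra K F]

/-- The value of `x` at a place is unique. -/
theorem h17_val_unique (Q : Place K F) (x : F) {c c' : K}
    (h : 0 < Q.ord (x - algebraMap K F c)) (h' : 0 < Q.ord (x - algebraMap K F c')) :
    c = c' := by
  by_contra hne
  obtain ⟨h1, h1m⟩ := Fermat.Agent.S24.RH.mem_maximalIdeal_of_ord_pos Q h
  obtain ⟨h2, h2m⟩ := Fermat.Agent.S24.RH.mem_maximalIdeal_of_ord_pos Q h'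
  have hsub := Ideal.sub_mem _ h2m h1m
  have hd : (⟨x - algebraMap K F c', h2⟩ - ⟨x - algebraMap K F c, h1⟩ :
      Q.toValuationSubring) ≠ 0 := by
    intro h0
    have h0' := congrArg Subtype.val h0
    simp only [AddSubgroupClass.coe_sub, ZeroMemClass.coe_zero] at h0'
    have : algebraMap K F c = algebraMap K F c' := by
      have e : algebraMap K F c - algebraMap K F c' =
          x - algebraMap K F c' - (x - algebraMap K F c) := by ring
      exact sub_eq_zero.mp (e.trans h0')
    exact hne ((algebraMap K F).injective this)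
  have hpos := Fermat.Agent.S24.RH.ord_pos_of_mem_maximalIdeal Q hsub hd
  have e : ((⟨x - algebraMap K F c', h2⟩ - ⟨x - algebraMap K F c, h1⟩ :
      Q.toValuationSubring) : F) = algebraMap K F (c - c') := by
    simp only [AddSubgroupClass.coe_sub, map_sub]
    ring
  rw [e, Fermat.Agent.S24.RH.ord_algebraMap] at hpos
  exact lt_irrefl _ hpos

/-- A place where `x` has a value is not a pole of `x`. -/
theorem h17_val_not_pole (Q : Place K F) (x : F) {c : K}
    (h : 0 < Q.ord (x - algebraMap K F c)) : ¬ Q.ord x < 0 := by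
  obtain ⟨h1, -⟩ := Fermat.Agent.S24.RH.mem_maximalIdeal_of_ord_pos Q h
  have hx : x ∈ Q.toValuationSubring := by
    have := add_mem h1 (Q.algebraMap_mem' c)
    rwa [sub_add_cancel] at this
  have := (Fermat.Agent.S24.RH.ord_nonneg_iff Q).mpr hx
  omega

end Generic

section Galois

open scoped Pointwise

variable {N : ℕ} {A : ValuationSubring (AlgebraicClosure ℚ)}

/-- `j` is fixed by the arithmetic Galois action. -/
theorem h17_smul_jL (σ : AlgebraicClosure ℚ ≃ₐ[ℚ] AlgebraicClosure ℚ) :
    arithmeticGalois (modularFunctionFieldFull N) σ • jL N = jL N := by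
  refine Subtype.ext ?_
  rw [coe_arithmeticGalois_smul]
  exact coeffMap_jqModC _

/-- The arithmetic Galois action on `j - a`. -/
theorem h17_smul_jL_sub (σ : AlgebraicClosure ℚ ≃ₐ[ℚ] AlgebraicClosure ℚ)
    (a : AlgebraicClosure ℚ) :
    arithmeticGalois (modularFunctionFieldFull N) σ •
        (jL N - algebraMap (AlgebraicClosure ℚ) (modularFunctionFieldBar N) a) =
      jL N - algebraMap (AlgebraicClosure ℚ) (modularFunctionFieldBar N) (σ a) := by
  rw [smul_sub, h17_smul_jL, SemilinearAut.smul_algebraMap, baseAut_arithmeticGalois]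
  rfl

/-- If `j` has the value `a` at `P`, it has the value `σ a` at `σ • P`. -/
theorem h17_JAt_smul (σ : AlgebraicClosure ℚ ≃ₐ[ℚ] AlgebraicClosure ℚ)
    {P : Place (AlgebraicClosure ℚ) (modularFunctionFieldBar N)} {a : AlgebraicClosure ℚ}
    (h : JAt P a) : JAt (arithmeticGalois (modularFunctionFieldFull N) σ • P) (σ a) := by
  unfold JAt at h ⊢
  rw [← h17_smul_jL_sub, SemilinearAut.ord_smul]
  exact h

/-- Elements of the decomposition group preserve `A`. -/
theorem h17_mem_of_decomp {σ : AlgebraicClosure ℚ ≃ₐ[ℚ] AlgebraicClosure ℚ}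
    (hσ : σ ∈ A.decompositionSubgroup ℚ) {a : AlgebraicClosure ℚ} (ha : a ∈ A) : σ a ∈ A := by
  have h1 : σ • A = A := hσ
  have h2 := ValuationSubring.smul_mem_pointwise_smul σ a A ha
  rwa [h1] at h2

/-- Elements of the decomposition group preserve the complement of `A`. -/
theorem h17_not_mem_of_decomp {σ : AlgebraicClosure ℚ ≃ₐ[ℚ] AlgebraicClosure ℚ}
    (hσ : σ ∈ A.decompositionSubgroup ℚ) {a : AlgebraicClosure ℚ} (ha : a ∉ A) : σ a ∉ A := by
  intro h
  have h2 := h17_mem_of_decomp ((A.decompositionSubgroup ℚ).inv_mem hσ) h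
  apply ha
  have e : σ⁻¹ (σ a) = a := by
    show σ.symm (σ a) = a
    exact σ.symm_apply_apply a
  rwa [e] at h2

/-- Cusps are preserved by the decomposition group. -/
theorem h17_JCusp_smul {σ : AlgebraicClosure ℚ ≃ₐ[ℚ] AlgebraicClosure ℚ}
    (hσ : σ ∈ A.decompositionSubgroup ℚ)
    {P : Place (AlgebraicClosure ℚ) (modularFunctionFieldBar N)} (h : JCusp A P) :
    JCusp A (arithmeticGalois (modularFunctionFieldFull N) σ • P) := by
  rcases h with h | ⟨a, ha, h⟩
  · left
    rw [← h17_smul_jL (N := N) σ, SemilinearAut.ord_smul]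
    exact h
  · right
    exact ⟨σ a, h17_not_mem_of_decomp hσ ha, h17_JAt_smul σ h⟩

/-- The residue class of `σ a` for `σ` in the decomposition group. -/
theorem h17_res_smul {σ : AlgebraicClosure ℚ ≃ₐ[ℚ] AlgebraicClosure ℚ}
    (hσ : σ ∈ A.decompositionSubgroup ℚ) (a : AlgebraicClosure ℚ) (ha : a ∈ A) :
    res A (σ a) (h17_mem_of_decomp hσ ha) =
      (⟨σ, hσ⟩ : A.decompositionSubgroup ℚ) • res A a ha := by
  unfold res
  rw [← IsLocalRing.ResidueField.residue_smul]
  rfl

/-- Inertia acts trivially on residue classes. -/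
theorem h17_res_inertia {τ : AlgebraicClosure ℚ ≃ₐ[ℚ] AlgebraicClosure ℚ}
    (hτ : τ ∈ A.inertiaSubgroupIn ℚ) (a : AlgebraicClosure ℚ) (ha : a ∈ A)
    (hτa : τ a ∈ A) : res A (τ a) hτa = res A a ha := by
  obtain ⟨hd, h⟩ := (H13.mem_inertiaSubgroupIn_iff A τ).mp hτ
  rw [show res A (τ a) hτa = res A (τ a) (h17_mem_of_decomp hd ha) from rfl, h17_res_smul hd, h]

/-- Frobenius elements act as the `ℓ`-th power on residue classes. -/
theorem h17_res_frob {σ : AlgebraicClosure ℚ ≃ₐ[ℚ] AlgebraicClosure ℚ} {ℓ : ℕ}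
    (hσ : A.IsFrobeniusAt σ ℓ) (a : AlgebraicClosure ℚ) (ha : a ∈ A)
    (hσa : σ a ∈ A) : res A (σ a) hσa = res A a ha ^ ℓ := by
  obtain ⟨hd, h⟩ := hσ
  rw [show res A (σ a) hσa = res A (σ a) (h17_mem_of_decomp hd ha) from rfl, h17_res_smul hd, h]

end Galois

end Fermat.Agent.S37x.Move.H17
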