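import Fermat.Agent.S37x.Move.H17_EsMixedTop
import Fermat.Agent.S37x.Asm.H14_EsDefs

/-!
# S37, package [MOVE] (iii'): `h14_esDelta = 0` (helper17)

The mixed Eichler–Shimura congruence in the chief's spelling `Asm.h14_esDelta … = 0`, from its
validity on principal divisors (`[ES-PRIN]`, `Asm.h14_esDelta_principal`).
-/

set_option autoImplicit false
set_option synthInstance.maxHeartbeats 400000
set_option maxHeartbeats 1000000

open HahnSeries IntermediateField AlgebraicCurve ModularCurve

noncomputable section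

namespace Fermat.Agent.S37x.Move.H17

open Fermat.Agent.S37x.Asm

variable {N M ℓ : ℕ} [NeZero N] [NeZero M] [NeZero ℓ]

/-- **[ES-PLACE], mixed form**, in the spelling `h14_esDelta … = 0`. -/
theorem h17_esDelta_eq_zero (hℓ : ℓ.Prime) (hNM : N ∣ M)
    (A : ValuationSubring (AlgebraicClosure ℚ)) (hA : A.LiesOverPrime ℓ)
    (r : Place (AlgebraicClosure ℚ) (modularFunctionFieldBar M) →
      Place (IsLocalRing.ResidueField A)
        (modularFunctionFieldFullC (IsLocalRing.ResidueField A) M))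
    (hU1 : StU1 A r) (hSep : StSep A r) (hKron : StKron N ℓ A) (hFFL : StFFL N M hNM)
    (hα : HeckeAlphaBarIntegral (AlgebraicClosure ℚ) N ℓ)
    (hβ : HeckeBetaBarIntegral (AlgebraicClosure ℚ) N ℓ)
    [HasPrincipalDivisors (AlgebraicClosure ℚ) (modularFunctionFieldBar (N * ℓ))]
    [HasPrincipalDivisors (AlgebraicClosure ℚ) (modularFunctionFieldBar M)]
    (hint : (incL N M hNM).toRingHom.IsIntegral)
    (σ₀ : AlgebraicClosure ℚ ≃ₐ[ℚ] AlgebraicClosure ℚ) (hσ₀ : A.IsFrobeniusAt σ₀ ℓ)
    (hprin : ∀ D : Divisor (AlgebraicClosure ℚ) (modularFunctionFieldBar N),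
      Divisor.IsPrincipal D → h14_esDelta N M ℓ hNM A r hα hβ hint σ₀ D = 0) :
    h14_esDelta N M ℓ hNM A r hα hβ hint σ₀ = 0 := by
  have hP : ∀ P : Place (AlgebraicClosure ℚ) (modularFunctionFieldBar N),
      h14_esDelta N M ℓ hNM A r hα hβ hint σ₀ (Finsupp.single P 1) = 0 := by
    intro P
    rw [h14_esDelta_single]
    refine h17_esMixed_top hNM hℓ hA r hU1 hSep hKron hFFL hint σ₀ hσ₀ hα hβ
      (fun D hD => ?_) P
    have h1 := hprin D hD
    rw [h14_esDelta_apply] at h1
    rw [natCast_zsmul]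
    exact h1
  refine AddMonoidHom.ext fun D => ?_
  rw [h17_delta_apply _ D, AddMonoidHom.zero_apply]
  apply Finset.sum_eq_zero
  intro P' _
  rw [hP P', smul_zero]

end Fermat.Agent.S37x.Move.H17
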