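import Fermat.Agent.S37x.Move.H17_EsDelta
import Fermat.Agent.S37x.Asm.H14_EsPrin
import Fermat.Agent.S37x.Kron.H2_Place
import Fermat.Agent.S37x.Norm.H3_Norm
import Fermat.Agent.S37x.FFL.H9_Top
import Fermat.Agent.S37x.FF.H23_Top
import Fermat.Agent.S37x.Red.H22_Gen

/-!
# S37: the mixed Eichler–Shimura congruence from a place reduction at level `M` (helper17)

`h17_esDelta_zero` : for `N ∣ M`, `ℓ ∤ N` prime, `A` over `ℓ`, `σ₀` a Frobenius element and ANY
place reduction `r` at level `M` with `[U1]` and `[SEP]`:  `Asm.h14_esDelta … = 0`, i.e.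
`r_* ι^* (T_ℓ D - σ₀ D - ℓ σ₀⁻¹ D) = 0` for every divisor `D` of `F_N`.

All other inputs are theorems: `[ES-PRIN]` (helper14), `[KRON]` (helper2), `[NORM]` (helper3),
`[FF]` (helper23), `[FFL]` (helper9), `[PGI]` (helper22).
-/

set_option autoImplicit false
set_option synthInstance.maxHeartbeats 400000
set_option maxHeartbeats 1000000

open HahnSeries IntermediateField AlgebraicCurve ModularCurve

noncomputable section

namespace Fermat.Agent.S37x.Move.H17

open Fermat.Agent.S37x.Asm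

variable {N M ℓ : ℕ} [NeZero N] [NeZero M] [NeZero ℓ]

/-- **The mixed Eichler–Shimura congruence** for a place reduction at level `M`. -/
theorem h17_esDelta_zero (hℓ : ℓ.Prime) (hNM : N ∣ M) (hℓN : ¬ ℓ ∣ N)
    (A : ValuationSubring (AlgebraicClosure ℚ)) (hA : A.LiesOverPrime ℓ)
    (r : Place (AlgebraicClosure ℚ) (modularFunctionFieldBar M) →
      Place (IsLocalRing.ResidueField A)
        (modularFunctionFieldFullC (IsLocalRing.ResidueField A) M))
    (hr : IsPlaceReductionModL A M r) (hU1 : StU1 A r) (hSep : StSep A r)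
    (hα : HeckeAlphaBarIntegral (AlgebraicClosure ℚ) N ℓ)
    (hβ : HeckeBetaBarIntegral (AlgebraicClosure ℚ) N ℓ)
    [HasPrincipalDivisors (AlgebraicClosure ℚ) (modularFunctionFieldBar (N * ℓ))]
    [HasPrincipalDivisors (AlgebraicClosure ℚ) (modularFunctionFieldBar M)]
    (hint : (incL N M hNM).toRingHom.IsIntegral)
    (σ₀ : AlgebraicClosure ℚ ≃ₐ[ℚ] AlgebraicClosure ℚ) (hσ₀ : A.IsFrobeniusAt σ₀ ℓ) :
    h14_esDelta N M ℓ hNM A r hα hβ hint σ₀ = 0 :=
  h17_esDelta_eq_zero hℓ hNM A hA r hU1 hSep (Fermat.Agent.S37x.Kron.H2.stKron N ℓ hℓ A hA)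
    (Fermat.Agent.S37x.FFL.H9.h9_stFFL N M hNM) hα hβ hint σ₀ hσ₀ fun D hD =>
    h14_esDelta_principal hℓ hNM A hA r hr
      (Fermat.Agent.S37x.Red.H22.h22_principalGeneratedByIntegral A hℓ hA N hℓN)
      (Fermat.Agent.S37x.Norm.H3.stNorm N ℓ hℓ hℓN A hA) hα hβ
      (Fermat.Agent.S37x.FF.H23.h23_finiteAlong_alpha (AlgebraicClosure ℚ) N ℓ)
      (Fermat.Agent.S37x.FF.H23.h23_normFormulaAlong_alpha
        Fermat.Agent.S18x.E.H12.h12_embQbar N ℓ) hint σ₀ hσ₀ D hD

end Fermat.Agent.S37x.Move.H17
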