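import Fermat.Agent.S37x.Move.H17_Inert
import Fermat.Agent.S37x.Asm.DefsRed

/-!
# S37, package [MOVE] (iii): the Eichler–Shimura congruence for places (helper17)

`h17_esPlace` : if `δ_ES := r_* T_ℓ - r_* σ₀_* - ℓ · r_* (σ₀⁻¹)_*` kills the principal divisors,
then (with `[KRON]`, `[U1]`, `[SEP]`) it vanishes, i.e.
`r_* (T_ℓ P) = r (σ₀ P) + ℓ · r (σ₀⁻¹ P)` for every place `P`.

Proof: the moving lemma for the relation
`Zrel Q₁ Q := (both poles of j̄) ∨ (j̄ (Q) ^ ℓ = j̄ (Q₁) ∨ j̄ (Q) = j̄ (Q₁) ^ ℓ)`.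
-/

set_option autoImplicit false
set_option synthInstance.maxHeartbeats 400000
set_option maxHeartbeats 1000000
set_option linter.style.haveILetI false

open HahnSeries IntermediateField AlgebraicCurve ModularCurve

noncomputable section

namespace Fermat.Agent.S37x.Move.H17

open Fermat.Agent.S37x.Asm

section CharL

variable {A : ValuationSubring (AlgebraicClosure ℚ)} {ℓ : ℕ}

theorem h17_natCast_residue (hA : A.LiesOverPrime ℓ) :
    (ℓ : IsLocalRing.ResidueField A) = 0 := by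
  obtain ⟨h1, h2⟩ := ValuationSubring.mem_nonunits_iff_exists_mem_maximalIdeal.mp hA
  have h3 : IsLocalRing.residue A ⟨(ℓ : AlgebraicClosure ℚ), h1⟩ = 0 :=
    (IsLocalRing.residue_eq_zero_iff _).mpr h2
  have e : (⟨(ℓ : AlgebraicClosure ℚ), h1⟩ : A) = (ℓ : A) := Subtype.ext (by simp)
  rw [e, map_natCast] at h3
  exact h3

/-- The `ℓ`-th power map is injective on the residue field. -/
theorem h17_pow_inj (hl : ℓ.Prime) (hA : A.LiesOverPrime ℓ)
    {x y : IsLocalRing.ResidueField A} (h : x ^ ℓ = y ^ ℓ) : x = y := by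
  have : CharP (IsLocalRing.ResidueField A) ℓ :=
    (CharP.charP_iff_prime_eq_zero hl).mpr (h17_natCast_residue hA)
  have : Fact ℓ.Prime := ⟨hl⟩
  exact frobenius_inj (IsLocalRing.ResidueField A) ℓ h

end CharL

section Rel

variable {N : ℕ} {A : ValuationSubring (AlgebraicClosure ℚ)}

/-- The Eichler–Shimura relation on the places of the special fibre:
`j̄ (Q) ∈ {j̄ (Q₁) ^ ℓ, j̄ (Q₁) ^ (1 / ℓ)}`. -/
def h17_esRel (ℓ : ℕ) (Q₁ Q : Place (IsLocalRing.ResidueField A)
    (modularFunctionFieldFullC (IsLocalRing.ResidueField A) N)) : Prop :=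
  (Q₁.ord (jk A N) < 0 ∧ Q.ord (jk A N) < 0) ∨
    ∃ c c' : IsLocalRing.ResidueField A, JbarAt Q₁ c ∧ JbarAt Q c' ∧ (c' ^ ℓ = c ∨ c' = c ^ ℓ)

/-- The finite set of `j̄`-values to be avoided. -/
def h17_esT (ℓ : ℕ) (c : IsLocalRing.ResidueField A) : Finset (IsLocalRing.ResidueField A) :=
  open Classical in
  {c, c ^ (ℓ * ℓ)} ∪
    (Polynomial.X ^ (ℓ * ℓ) - Polynomial.C c :
      Polynomial (IsLocalRing.ResidueField A)).roots.toFinset

theorem h17_mem_esT {ℓ : ℕ} (hl : ℓ.Prime) (hA : A.LiesOverPrime ℓ)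
    {c c' w : IsLocalRing.ResidueField A} (h : w ^ ℓ = c ∨ w = c ^ ℓ)
    (h' : w ^ ℓ = c' ∨ w = c' ^ ℓ) : c' ∈ h17_esT ℓ c := by
  classical
  unfold h17_esT
  rw [Finset.mem_union, Finset.mem_insert, Finset.mem_singleton, Multiset.mem_toFinset,
    Polynomial.mem_roots (Polynomial.X_pow_sub_C_ne_zero (Nat.mul_pos hl.pos hl.pos) c),
    Polynomial.IsRoot.def, Polynomial.eval_sub, Polynomial.eval_pow, Polynomial.eval_X,
    Polynomial.eval_C, sub_eq_zero]
  rcases h with h | h <;> rcases h' with h' | h'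
  · exact Or.inl (Or.inl (h'.symm.trans h))
  · right
    rw [pow_mul, ← h', h]
  · left; right
    rw [← h', h, pow_mul]
  · left; left
    exact h17_pow_inj hl hA (h'.symm.trans h)

end Rel

section Support

variable {N : ℕ} [NeZero N] {ℓ : ℕ} [NeZero ℓ] {A : ValuationSubring (AlgebraicClosure ℚ)}

/-- The ramification index along an integral homomorphism is positive. -/
theorem h17_ramificationIndexAlong_pos {K F F' : Type*} [Field K] [Field F] [Field F']
    [Algebra K F] [Algebra K F'] (φ : F →ₐ[K] F') (hφ : φ.toRingHom.IsIntegral)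
    (W : Place K F') : 0 < Place.ramificationIndexAlong φ W := by
  letI := algebraAlong φ
  haveI := isScalarTower_along φ
  haveI := isIntegral_along φ hφ
  exact Place.ramificationIndex_pos W

/-- `ord_W (φ f)` is positive iff `ord_{W|φ} f` is. -/
theorem h17_ord_along_pos_iff {K F F' : Type*} [Field K] [Field F] [Field F']
    [Algebra K F] [Algebra K F'] (φ : F →ₐ[K] F') (hφ : φ.toRingHom.IsIntegral)
    (W : Place K F') (f : F) : 0 < W.ord (φ f) ↔ 0 < (W.restrictAlong φ hφ).ord f := by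
  rw [Place.ord_restrictAlong φ hφ W f]
  have he : (0 : ℤ) < (Place.ramificationIndexAlong φ W : ℤ) := by
    exact_mod_cast h17_ramificationIndexAlong_pos φ hφ W
  constructor
  · intro h
    exact (mul_pos_iff_of_pos_left he).mp h
  · intro h
    exact mul_pos he h

/-- `ord_W (φ f)` is negative iff `ord_{W|φ} f` is. -/
theorem h17_ord_along_neg_iff {K F F' : Type*} [Field K] [Field F] [Field F']
    [Algebra K F] [Algebra K F'] (φ : F →ₐ[K] F') (hφ : φ.toRingHom.IsIntegral)
    (W : Place K F') (f : F) : W.ord (φ f) < 0 ↔ (W.restrictAlong φ hφ).ord f < 0 := by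
  rw [Place.ord_restrictAlong φ hφ W f]
  have he : (0 : ℤ) < (Place.ramificationIndexAlong φ W : ℤ) := by
    exact_mod_cast h17_ramificationIndexAlong_pos φ hφ W
  constructor
  · intro h
    by_contra h'
    exact absurd h (not_lt.mpr (mul_nonneg he.le (not_lt.mp h')))
  · intro h
    exact mul_neg_of_pos_of_neg he h

variable (hα : HeckeAlphaBarIntegral (AlgebraicClosure ℚ) N ℓ)
  (hβ : HeckeBetaBarIntegral (AlgebraicClosure ℚ) N ℓ)

/-- **[KRON]**, in terms of the two restrictions of a place `W` of `F_{Nℓ}`: values. -/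
theorem h17_kron_val (hKron : StKron N ℓ A)
    (W : Place (AlgebraicClosure ℚ) (modularFunctionFieldBar (N * ℓ)))
    {b : AlgebraicClosure ℚ} (hb : b ∈ A)
    (h : JAt (W.restrictAlong (heckeBetaBar (AlgebraicClosure ℚ) N ℓ) hβ) b) :
    ∃ (a : AlgebraicClosure ℚ) (ha : a ∈ A),
      JAt (W.restrictAlong (heckeAlphaBar (AlgebraicClosure ℚ) N ℓ) hα) a ∧
        (res A a ha ^ ℓ = res A b hb ∨ res A a ha = res A b hb ^ ℓ) := by
  obtain ⟨a, ha, h1, h2⟩ := (hKron W).1 b hb ((h17_ord_along_pos_iff _ hβ W _).mpr h)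
  exact ⟨a, ha, (h17_ord_along_pos_iff _ hα W _).mp h1, h2⟩

/-- **[KRON]**, in terms of the two restrictions of a place `W` of `F_{Nℓ}`: cusps. -/
theorem h17_kron_cusp (hKron : StKron N ℓ A)
    (W : Place (AlgebraicClosure ℚ) (modularFunctionFieldBar (N * ℓ)))
    (h : JCusp A (W.restrictAlong (heckeBetaBar (AlgebraicClosure ℚ) N ℓ) hβ)) :
    JCusp A (W.restrictAlong (heckeAlphaBar (AlgebraicClosure ℚ) N ℓ) hα) := by
  have h' : W.ord (heckeBetaBar (AlgebraicClosure ℚ) N ℓ (jL N)) < 0 ∨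
      ∃ b : AlgebraicClosure ℚ, b ∉ A ∧
        0 < W.ord (heckeBetaBar (AlgebraicClosure ℚ) N ℓ
          (jL N - algebraMap (AlgebraicClosure ℚ) (modularFunctionFieldBar N) b)) := by
    rcases h with h | ⟨b, hb, h⟩
    · exact Or.inl ((h17_ord_along_neg_iff _ hβ W _).mpr h)
    · exact Or.inr ⟨b, hb, (h17_ord_along_pos_iff _ hβ W _).mpr h⟩
  rcases (hKron W).2 h' with h | ⟨a, ha, h⟩
  · exact Or.inl ((h17_ord_along_neg_iff _ hα W _).mp h)
  · exact Or.inr ⟨a, ha, (h17_ord_along_pos_iff _ hα W _).mp h⟩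

end Support

section Main

variable {N : ℕ} [NeZero N] {ℓ : ℕ} [NeZero ℓ] {A : ValuationSubring (AlgebraicClosure ℚ)}

variable (r : Place (AlgebraicClosure ℚ) (modularFunctionFieldBar N) →
  Place (IsLocalRing.ResidueField A) (modularFunctionFieldFullC (IsLocalRing.ResidueField A) N))

/-- The support of `r_* (T_ℓ P)`. -/
theorem h17_hecke_support
    [HasPrincipalDivisors (AlgebraicClosure ℚ) (modularFunctionFieldBar (N * ℓ))]
    (hα : HeckeAlphaBarIntegral (AlgebraicClosure ℚ) N ℓ)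
    (hβ : HeckeBetaBarIntegral (AlgebraicClosure ℚ) N ℓ)
    (P : Place (AlgebraicClosure ℚ) (modularFunctionFieldBar N))
    (Q : Place (IsLocalRing.ResidueField A)
      (modularFunctionFieldFullC (IsLocalRing.ResidueField A) N))
    (h : Finsupp.mapDomain r (heckeDivBar hα hβ (Finsupp.single P 1)) Q ≠ 0) :
    ∃ W : Place (AlgebraicClosure ℚ) (modularFunctionFieldBar (N * ℓ)),
      W.restrictAlong (heckeBetaBar (AlgebraicClosure ℚ) N ℓ) hβ = P ∧
        r (W.restrictAlong (heckeAlphaBar (AlgebraicClosure ℚ) N ℓ) hα) = Q := by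
  classical
  by_contra hcon
  push Not at hcon
  apply h
  have hα' : (heckeAlphaBar (AlgebraicClosure ℚ) N ℓ).toRingHom.IsIntegral := hα
  have hβ' : (heckeBetaBar (AlgebraicClosure ℚ) N ℓ).toRingHom.IsIntegral := hβ
  have e : heckeDivBar hα hβ (Finsupp.single P 1) =
      Divisor.pushforwardAlong (heckeAlphaBar (AlgebraicClosure ℚ) N ℓ) hα'
        (Divisor.pullbackAlong (heckeBetaBar (AlgebraicClosure ℚ) N ℓ) hβ'
          (Finsupp.single P 1)) := rfl
  rw [e, Divisor.pullbackAlong_single _ hβ', map_sum, Finsupp.mapDomain_finsetSum,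
    Finsupp.finsetSum_apply]
  refine Finset.sum_eq_zero fun W hW => ?_
  rw [Divisor.pushforwardAlong_single _ hα', Finsupp.mapDomain_single, Finsupp.single_apply,
    if_neg (hcon W (Place.mem_fiberAlong.mp hW))]

/-- **[ES-PLACE]**: the Eichler–Shimura congruence for places, from the congruence for
principal divisors and `[KRON]`, `[U1]`, `[SEP]`. -/
theorem h17_esPlace [HasPrincipalDivisors (AlgebraicClosure ℚ) (modularFunctionFieldBar N)]
    [HasPrincipalDivisors (AlgebraicClosure ℚ) (modularFunctionFieldBar (N * ℓ))]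
    (hval : ∀ P : Place (AlgebraicClosure ℚ) (modularFunctionFieldBar N),
      0 ≤ P.ord (jL N) → ∃ a : AlgebraicClosure ℚ, JAt P a)
    (hl : ℓ.Prime) (hA : A.LiesOverPrime ℓ)
    (hU1 : StU1 A r) (hSep : StSep A r) (hKron : StKron N ℓ A)
    (σ₀ : AlgebraicClosure ℚ ≃ₐ[ℚ] AlgebraicClosure ℚ) (hσ₀ : A.IsFrobeniusAt σ₀ ℓ)
    (hα : HeckeAlphaBarIntegral (AlgebraicClosure ℚ) N ℓ)
    (hβ : HeckeBetaBarIntegral (AlgebraicClosure ℚ) N ℓ)
    (hprinES : ∀ D : Divisor (AlgebraicClosure ℚ) (modularFunctionFieldBar N),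
      Divisor.IsPrincipal D →
        Finsupp.mapDomain r (heckeDivBar hα hβ D) =
          Finsupp.mapDomain r (arithmeticGalois (modularFunctionFieldFull N) σ₀ • D) +
            (ℓ : ℤ) • Finsupp.mapDomain r
              ((arithmeticGalois (modularFunctionFieldFull N) σ₀)⁻¹ • D))
    (P : Place (AlgebraicClosure ℚ) (modularFunctionFieldBar N)) :
    Finsupp.mapDomain r (heckeDivBar hα hβ (Finsupp.single P 1)) =
      Finsupp.single (r (arithmeticGalois (modularFunctionFieldFull N) σ₀ • P)) 1 +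
        Finsupp.single (r ((arithmeticGalois (modularFunctionFieldFull N) σ₀)⁻¹ • P))
          (ℓ : ℤ) := by
  classical
  have hd : σ₀ ∈ A.decompositionSubgroup ℚ := hσ₀.mem_decompositionSubgroup
  have hd' : σ₀⁻¹ ∈ A.decompositionSubgroup ℚ := (A.decompositionSubgroup ℚ).inv_mem hd
  set g := arithmeticGalois (modularFunctionFieldFull N) σ₀ with hg
  have hginv : g⁻¹ = arithmeticGalois (modularFunctionFieldFull N) σ₀⁻¹ := (map_inv _ _).symm
  set R := Finsupp.mapDomain.addMonoidHom (M := ℤ) r with hR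
  set δ : Divisor (AlgebraicClosure ℚ) (modularFunctionFieldBar N) →+
      Divisor (IsLocalRing.ResidueField A)
        (modularFunctionFieldFullC (IsLocalRing.ResidueField A) N) :=
    R.comp (heckeDivBar hα hβ) -
      (R.comp (DistribSMul.toAddMonoidHom
          (Divisor (AlgebraicClosure ℚ) (modularFunctionFieldBar N)) g) +
        (ℓ : ℤ) • R.comp (DistribSMul.toAddMonoidHom
          (Divisor (AlgebraicClosure ℚ) (modularFunctionFieldBar N)) g⁻¹)) with hδ
  have hδapp : ∀ D, δ D = Finsupp.mapDomain r (heckeDivBar hα hβ D) -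
      (Finsupp.mapDomain r (g • D) + (ℓ : ℤ) • Finsupp.mapDomain r (g⁻¹ • D)) := fun D => rfl
  have hδs : ∀ P', δ (Finsupp.single P' 1) =
      Finsupp.mapDomain r (heckeDivBar hα hβ (Finsupp.single P' 1)) -
        (Finsupp.single (r (g • P')) 1 + Finsupp.single (r (g⁻¹ • P')) (ℓ : ℤ)) := by
    intro P'
    rw [hδapp, SemilinearAut.smul_single, SemilinearAut.smul_single, Finsupp.mapDomain_single,
      Finsupp.mapDomain_single, Finsupp.smul_single, smul_eq_mul, mul_one]
  have hprin : ∀ D : Divisor (AlgebraicClosure ℚ) (modularFunctionFieldBar N),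
      Divisor.IsPrincipal D → δ D = 0 := by
    intro D hD
    rw [hδapp, hprinES D hD, sub_self]
  -- the three kinds of places in the support
  have hrelW : ∀ (P' : Place (AlgebraicClosure ℚ) (modularFunctionFieldBar N))
      (W : Place (AlgebraicClosure ℚ) (modularFunctionFieldBar (N * ℓ))),
      W.restrictAlong (heckeBetaBar (AlgebraicClosure ℚ) N ℓ) hβ = P' →
        h17_esRel ℓ (r P')
          (r (W.restrictAlong (heckeAlphaBar (AlgebraicClosure ℚ) N ℓ) hα)) := by
    intro P' W hW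
    rcases h17_tricho (A := A) hval P' with hc | ⟨b, hb, hP'⟩
    · left
      refine ⟨hU1.2 P' hc, hU1.2 _ (h17_kron_cusp hα hβ hKron W ?_)⟩
      rw [hW]; exact hc
    · right
      obtain ⟨a, ha, h1, h2⟩ := h17_kron_val hα hβ hKron W hb (by rw [hW]; exact hP')
      exact ⟨res A b hb, res A a ha, hU1.1 P' b hb hP', hU1.1 _ a ha h1, h2⟩
  have hrelg : ∀ P' : Place (AlgebraicClosure ℚ) (modularFunctionFieldBar N),
      h17_esRel ℓ (r P') (r (g • P')) := by
    intro P'
    rcases h17_tricho (A := A) hval P' with hc | ⟨b, hb, hP'⟩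
    · left
      exact ⟨hU1.2 P' hc, hU1.2 _ (h17_JCusp_smul hd hc)⟩
    · right
      refine ⟨res A b hb, res A (σ₀ b) (h17_mem_of_decomp hd hb), hU1.1 P' b hb hP',
        hU1.1 _ _ _ (h17_JAt_smul σ₀ hP'), Or.inr ?_⟩
      exact h17_res_frob hσ₀ b hb _
  have hrelg' : ∀ P' : Place (AlgebraicClosure ℚ) (modularFunctionFieldBar N),
      h17_esRel ℓ (r P') (r (g⁻¹ • P')) := by
    intro P'
    rw [hginv]
    rcases h17_tricho (A := A) hval P' with hc | ⟨b, hb, hP'⟩
    · left
      exact ⟨hU1.2 P' hc, hU1.2 _ (h17_JCusp_smul hd' hc)⟩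
    · right
      have hb' : σ₀⁻¹ b ∈ A := h17_mem_of_decomp hd' hb
      refine ⟨res A b hb, res A (σ₀⁻¹ b) hb', hU1.1 P' b hb hP',
        hU1.1 _ _ _ (h17_JAt_smul σ₀⁻¹ hP'), Or.inl ?_⟩
      have e : σ₀ (σ₀⁻¹ b) = b := by
        show σ₀ (σ₀.symm b) = b
        exact σ₀.apply_symm_apply b
      have h1 := h17_res_frob hσ₀ (σ₀⁻¹ b) hb' (by rw [e]; exact hb)
      rw [← h1]
      congr 1
  have hsupp : ∀ (P' : Place (AlgebraicClosure ℚ) (modularFunctionFieldBar N))
      (Q : Place (IsLocalRing.ResidueField A)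
        (modularFunctionFieldFullC (IsLocalRing.ResidueField A) N)),
      δ (Finsupp.single P' 1) Q ≠ 0 → h17_esRel ℓ (r P') Q := by
    intro P' Q hQ
    by_cases h1 : r (g • P') = Q
    · rw [← h1]; exact hrelg P'
    by_cases h2 : r (g⁻¹ • P') = Q
    · rw [← h2]; exact hrelg' P'
    rw [hδs, Finsupp.sub_apply, Finsupp.add_apply, Finsupp.single_apply, Finsupp.single_apply,
      if_neg h1, if_neg h2, add_zero, sub_zero] at hQ
    obtain ⟨W, hW, hWQ⟩ := h17_hecke_support r hα hβ P' Q hQ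
    rw [← hWQ]
    exact hrelW P' W hW
  -- separation
  have hsep : ∀ P : Place (AlgebraicClosure ℚ) (modularFunctionFieldBar N),
      ∃ f : modularFunctionFieldBar N, f ≠ 0 ∧ P.ord f ≠ 0 ∧
        ∀ P', P' ≠ P → P'.ord f ≠ 0 → ∀ Q, h17_esRel ℓ (r P) Q → ¬ h17_esRel ℓ (r P') Q := by
    intro P
    rcases h17_tricho (A := A) hval P with hc | ⟨b, hb, hP⟩
    · obtain ⟨f, hf, hPf, hs⟩ := hSep.2 P hc
      refine ⟨f, hf, hPf, fun P' hne hP' Q hZ hZ' => hs P' hne hP' ?_⟩
      have hpole := hU1.2 P hc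
      have hQ : Q.ord (jk A N) < 0 := by
        rcases hZ with ⟨-, h⟩ | ⟨c, c', h1, -, -⟩
        · exact h
        · exact absurd hpole (h17_val_not_pole _ _ h1)
      rcases hZ' with ⟨h, -⟩ | ⟨c, c', -, h2, -⟩
      · exact h
      · exact absurd hQ (h17_val_not_pole _ _ h2)
    · obtain ⟨f, hf, hPf, hs⟩ := hSep.1 P (h17_not_JCusp hb hP) (h17_esT ℓ (res A b hb))
      refine ⟨f, hf, hPf, fun P' hne hP' Q hZ hZ' => ?_⟩
      have hPb := hU1.1 P b hb hP
      rcases hZ with ⟨h, -⟩ | ⟨c, w, h1, h2, h3⟩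
      · exact h17_val_not_pole _ _ hPb h
      have hc : c = res A b hb := h17_val_unique _ _ h1 hPb
      rcases hZ' with ⟨-, h⟩ | ⟨c₂, w', h1', h2', h3'⟩
      · exact h17_val_not_pole _ _ h2 h
      have hw : w' = w := h17_val_unique _ _ h2' h2
      rw [hw] at h3'
      rw [hc] at h3
      exact hs P' hne hP' c₂ (h17_mem_esT hl hA h3 h3') h1'
  have h0 := h17_move_fun r δ (h17_esRel ℓ) hsupp hprin hsep
  have h1 := hδs P
  rw [h0, AddMonoidHom.zero_apply] at h1
  exact sub_eq_zero.mp h1.symm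

end Main

end Fermat.Agent.S37x.Move.H17
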