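import Fermat.Agent.S37x.Move.H17_MoveRel
import Fermat.Agent.S37x.Move.H17_EsPlace
import Fermat.Agent.S37x.Asm.DefsDesc

/-!
# S37, package [MOVE] (iii'): the MIXED Eichler–Shimura congruence for places (helper17)

Levels `N ∣ M`, `ι : F_N → F_M`, `r` a place reduction at level `M` (with `[U1]`, `[SEP]` at
level `M`), Hecke operator and Frobenius at level `N`:

`r_* ι^* (T_ℓ P - σ₀ P - ℓ · σ₀⁻¹ P) = 0` for every place `P` of `F_N`,

provided this holds for principal divisors in place of `P`.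
-/

set_option autoImplicit false
set_option synthInstance.maxHeartbeats 400000
set_option maxHeartbeats 1000000
set_option linter.style.haveILetI false
set_option linter.unusedSectionVars false

open HahnSeries IntermediateField AlgebraicCurve ModularCurve

noncomputable section

namespace Fermat.Agent.S37x.Move.H17

open Fermat.Agent.S37x.Asm

section Over

variable {N M : ℕ} [NeZero N] [NeZero M] (h : N ∣ M)
  {A : ValuationSubring (AlgebraicClosure ℚ)}

theorem h17_incL_jL_sub (a : AlgebraicClosure ℚ) :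
    incL N M h (jL N - algebraMap (AlgebraicClosure ℚ) (modularFunctionFieldBar N) a) =
      jL M - algebraMap (AlgebraicClosure ℚ) (modularFunctionFieldBar M) a := by
  rw [map_sub, AlgHom.commutes]
  rfl

theorem h17_incL_jL : incL N M h (jL N) = jL M := rfl

variable (hint : (incL N M h).toRingHom.IsIntegral)

/-- Values of `j` at a place of `F_M` and at its restriction to `F_N`. -/
theorem h17_JAt_over (W : Place (AlgebraicClosure ℚ) (modularFunctionFieldBar M))
    (a : AlgebraicClosure ℚ) : JAt (W.restrictAlong (incL N M h) hint) a ↔ JAt W a := by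
  unfold JAt
  rw [← h17_incL_jL_sub h a]
  exact (h17_ord_along_pos_iff (incL N M h) hint W _).symm

/-- Cusps at level `M` and `N`. -/
theorem h17_JCusp_over (W : Place (AlgebraicClosure ℚ) (modularFunctionFieldBar M)) :
    JCusp A (W.restrictAlong (incL N M h) hint) ↔ JCusp A W := by
  unfold JCusp
  have e : (W.restrictAlong (incL N M h) hint).ord (jL N) < 0 ↔ W.ord (jL M) < 0 := by
    rw [← h17_incL_jL h]
    exact (h17_ord_along_neg_iff (incL N M h) hint W _).symm
  rw [e]
  refine or_congr Iff.rfl (exists_congr fun a => and_congr Iff.rfl ?_)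
  exact h17_JAt_over h hint W a

end Over

section Rel

variable {N M : ℕ} {A : ValuationSubring (AlgebraicClosure ℚ)}

/-- The mixed Eichler–Shimura relation between the places of `F_N` and those of `F̄_M`. -/
def h17_esRelM (ℓ : ℕ) (P : Place (AlgebraicClosure ℚ) (modularFunctionFieldBar N))
    (Q : Place (IsLocalRing.ResidueField A)
      (modularFunctionFieldFullC (IsLocalRing.ResidueField A) M)) : Prop :=
  (JCusp A P ∧ Q.ord (jk A M) < 0) ∨
    ∃ (b : AlgebraicClosure ℚ) (hb : b ∈ A) (c' : IsLocalRing.ResidueField A),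
      JAt P b ∧ JbarAt Q c' ∧ (c' ^ ℓ = res A b hb ∨ c' = res A b hb ^ ℓ)

/-- The relation of the `j`-values of `P` and `P'` (`P'` in the support of
`T_ℓ P - σ₀ P - ℓ σ₀⁻¹ P`). -/
def h17_valRel (A : ValuationSubring (AlgebraicClosure ℚ)) (ℓ : ℕ)
    (P P' : Place (AlgebraicClosure ℚ) (modularFunctionFieldBar N)) : Prop :=
  (JCusp A P → JCusp A P') ∧
    ∀ (b : AlgebraicClosure ℚ) (hb : b ∈ A), JAt P b →
      ∃ (a : AlgebraicClosure ℚ) (ha : a ∈ A), JAt P' a ∧
        (res A a ha ^ ℓ = res A b hb ∨ res A a ha = res A b hb ^ ℓ)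

theorem h17_mem_esT_self (ℓ : ℕ) (c : IsLocalRing.ResidueField A) : c ∈ h17_esT ℓ c := by
  classical
  unfold h17_esT
  exact Finset.mem_union_left _ (Finset.mem_insert_self _ _)

theorem h17_res_congr {a b : AlgebraicClosure ℚ} (hab : a = b) (ha : a ∈ A) (hb : b ∈ A) :
    res A a ha = res A b hb := by
  subst hab
  rfl

end Rel

section ValRel

variable {N : ℕ} [NeZero N] {ℓ : ℕ} [NeZero ℓ] {A : ValuationSubring (AlgebraicClosure ℚ)}

/-- `[KRON]`: the value relation for the two restrictions of a place `W` of `F_{Nℓ}`. -/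
theorem h17_valRel_hecke (hα : HeckeAlphaBarIntegral (AlgebraicClosure ℚ) N ℓ)
    (hβ : HeckeBetaBarIntegral (AlgebraicClosure ℚ) N ℓ) (hKron : StKron N ℓ A)
    (W : Place (AlgebraicClosure ℚ) (modularFunctionFieldBar (N * ℓ))) :
    h17_valRel A ℓ (W.restrictAlong (heckeBetaBar (AlgebraicClosure ℚ) N ℓ) hβ)
      (W.restrictAlong (heckeAlphaBar (AlgebraicClosure ℚ) N ℓ) hα) :=
  ⟨fun hc => h17_kron_cusp hα hβ hKron W hc,
    fun _ hb hP => h17_kron_val hα hβ hKron W hb hP⟩

/-- The value relation for `P` and `σ₀ P`. -/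
theorem h17_valRel_frob {σ₀ : AlgebraicClosure ℚ ≃ₐ[ℚ] AlgebraicClosure ℚ}
    (hσ₀ : A.IsFrobeniusAt σ₀ ℓ)
    (P : Place (AlgebraicClosure ℚ) (modularFunctionFieldBar N)) :
    h17_valRel A ℓ P (arithmeticGalois (modularFunctionFieldFull N) σ₀ • P) := by
  have hd : σ₀ ∈ A.decompositionSubgroup ℚ := hσ₀.mem_decompositionSubgroup
  refine ⟨fun hc => h17_JCusp_smul hd hc, fun b hb hP => ?_⟩
  exact ⟨σ₀ b, h17_mem_of_decomp hd hb, h17_JAt_smul σ₀ hP, Or.inr (h17_res_frob hσ₀ b hb _)⟩

/-- The value relation for `P` and `σ₀⁻¹ P`. -/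
theorem h17_valRel_frob_inv {σ₀ : AlgebraicClosure ℚ ≃ₐ[ℚ] AlgebraicClosure ℚ}
    (hσ₀ : A.IsFrobeniusAt σ₀ ℓ)
    (P : Place (AlgebraicClosure ℚ) (modularFunctionFieldBar N)) :
    h17_valRel A ℓ P ((arithmeticGalois (modularFunctionFieldFull N) σ₀)⁻¹ • P) := by
  have hd : σ₀ ∈ A.decompositionSubgroup ℚ := hσ₀.mem_decompositionSubgroup
  have hd' : σ₀⁻¹ ∈ A.decompositionSubgroup ℚ := (A.decompositionSubgroup ℚ).inv_mem hd
  have hginv : (arithmeticGalois (modularFunctionFieldFull N) σ₀)⁻¹ =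
      arithmeticGalois (modularFunctionFieldFull N) σ₀⁻¹ := (map_inv _ _).symm
  rw [hginv]
  refine ⟨fun hc => h17_JCusp_smul hd' hc, fun b hb hP => ?_⟩
  have hb' : σ₀⁻¹ b ∈ A := h17_mem_of_decomp hd' hb
  refine ⟨σ₀⁻¹ b, hb', h17_JAt_smul σ₀⁻¹ hP, Or.inl ?_⟩
  have e : σ₀ (σ₀⁻¹ b) = b := by
    show σ₀ (σ₀.symm b) = b
    exact σ₀.apply_symm_apply b
  have h1 := h17_res_frob hσ₀ (σ₀⁻¹ b) hb' (by rw [e]; exact hb)
  rw [← h1]
  exact h17_res_congr e _ _

end ValRel

section Support

variable {K F F' k Fk : Type*} [Field K] [Field F] [Algebra K F] [Field F'] [Algebra K F']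
  [Field k] [Field Fk] [Algebra k Fk]

/-- The support of `r_* φ^* D`. -/
theorem h17_pull_support [HasPrincipalDivisors K F'] (φ : F →ₐ[K] F')
    (hφ : φ.toRingHom.IsIntegral) (r : Place K F' → Place k Fk) (D : Divisor K F)
    (Q : Place k Fk) (hQ : Finsupp.mapDomain r (Divisor.pullbackAlong φ hφ D) Q ≠ 0) :
    ∃ W : Place K F', D (W.restrictAlong φ hφ) ≠ 0 ∧ r W = Q := by
  classical
  rw [h17_mapDomain_apply] at hQ
  obtain ⟨W, -, hW⟩ := Finset.exists_ne_zero_of_sum_ne_zero hQ
  have hrW : r W = Q := by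
    by_contra hne
    rw [if_neg hne] at hW
    exact hW rfl
  rw [if_pos hrW, Divisor.pullbackAlong_apply] at hW
  exact ⟨W, right_ne_zero_of_mul hW, hrW⟩

/-- The support of a correspondence applied to a place. -/
theorem h17_corr_support [HasPrincipalDivisors K F'] (φ ψ : F →ₐ[K] F')
    (hφ : φ.toRingHom.IsIntegral) (hψ : ψ.toRingHom.IsIntegral) (P P' : Place K F)
    (hP' : Divisor.correspondence φ ψ hφ hψ (Finsupp.single P 1) P' ≠ 0) :
    ∃ W : Place K F', W.restrictAlong φ hφ = P ∧ W.restrictAlong ψ hψ = P' := by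
  classical
  rw [Divisor.correspondence_apply, h17_pushforwardAlong_apply] at hP'
  obtain ⟨W, hWmem, hW⟩ := Finset.exists_ne_zero_of_sum_ne_zero hP'
  have hWP' : W.restrictAlong ψ hψ = P' := by
    by_contra hne
    rw [if_neg hne] at hW
    exact hW rfl
  have h1 := Finsupp.mem_support_iff.mp hWmem
  rw [Divisor.pullbackAlong_apply, Finsupp.single_apply] at h1
  refine ⟨W, ?_, hWP'⟩
  by_contra hne
  rw [if_neg (Ne.symm hne), mul_zero] at h1
  exact h1 rfl

end Support

section Main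

variable {N M : ℕ} [NeZero N] [NeZero M] (h : N ∣ M) {ℓ : ℕ} [NeZero ℓ]
  {A : ValuationSubring (AlgebraicClosure ℚ)}

/-- The Eichler–Shimura operator `T_ℓ - σ₀ - ℓ σ₀⁻¹` on the divisors of `F_N`. -/
def h17_esOp [HasPrincipalDivisors (AlgebraicClosure ℚ) (modularFunctionFieldBar (N * ℓ))]
    (hα : HeckeAlphaBarIntegral (AlgebraicClosure ℚ) N ℓ)
    (hβ : HeckeBetaBarIntegral (AlgebraicClosure ℚ) N ℓ)
    (σ₀ : AlgebraicClosure ℚ ≃ₐ[ℚ] AlgebraicClosure ℚ) :
    Divisor (AlgebraicClosure ℚ) (modularFunctionFieldBar N) →+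
      Divisor (AlgebraicClosure ℚ) (modularFunctionFieldBar N) :=
  heckeDivBar hα hβ -
    DistribSMul.toAddMonoidHom (Divisor (AlgebraicClosure ℚ) (modularFunctionFieldBar N))
      (arithmeticGalois (modularFunctionFieldFull N) σ₀) -
    (ℓ : ℤ) • DistribSMul.toAddMonoidHom
      (Divisor (AlgebraicClosure ℚ) (modularFunctionFieldBar N))
      (arithmeticGalois (modularFunctionFieldFull N) σ₀)⁻¹

theorem h17_esOp_apply
    [HasPrincipalDivisors (AlgebraicClosure ℚ) (modularFunctionFieldBar (N * ℓ))]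
    (hα : HeckeAlphaBarIntegral (AlgebraicClosure ℚ) N ℓ)
    (hβ : HeckeBetaBarIntegral (AlgebraicClosure ℚ) N ℓ)
    (σ₀ : AlgebraicClosure ℚ ≃ₐ[ℚ] AlgebraicClosure ℚ)
    (D : Divisor (AlgebraicClosure ℚ) (modularFunctionFieldBar N)) :
    h17_esOp hα hβ σ₀ D = heckeDivBar hα hβ D -
      arithmeticGalois (modularFunctionFieldFull N) σ₀ • D -
      (ℓ : ℤ) • ((arithmeticGalois (modularFunctionFieldFull N) σ₀)⁻¹ • D) := rfl

theorem h17_esOp_single
    [HasPrincipalDivisors (AlgebraicClosure ℚ) (modularFunctionFieldBar (N * ℓ))]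
    (hα : HeckeAlphaBarIntegral (AlgebraicClosure ℚ) N ℓ)
    (hβ : HeckeBetaBarIntegral (AlgebraicClosure ℚ) N ℓ)
    (σ₀ : AlgebraicClosure ℚ ≃ₐ[ℚ] AlgebraicClosure ℚ)
    (P : Place (AlgebraicClosure ℚ) (modularFunctionFieldBar N)) :
    h17_esOp hα hβ σ₀ (Finsupp.single P 1) = heckeDivBar hα hβ (Finsupp.single P 1) -
      Finsupp.single (arithmeticGalois (modularFunctionFieldFull N) σ₀ • P) 1 -
      Finsupp.single ((arithmeticGalois (modularFunctionFieldFull N) σ₀)⁻¹ • P) (ℓ : ℤ) := by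
  rw [h17_esOp_apply, SemilinearAut.smul_single, SemilinearAut.smul_single,
    Finsupp.smul_single, smul_eq_mul, mul_one]

variable (r : Place (AlgebraicClosure ℚ) (modularFunctionFieldBar M) →
  Place (IsLocalRing.ResidueField A) (modularFunctionFieldFullC (IsLocalRing.ResidueField A) M))

/-- The relation holds between `P` and `r W` if `W` lies over a place `P'` whose `j`-value is
related to the one of `P`. -/
theorem h17_esRelM_of_valRel (hint : (incL N M h).toRingHom.IsIntegral)
    (hvalN : ∀ P : Place (AlgebraicClosure ℚ) (modularFunctionFieldBar N),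
      0 ≤ P.ord (jL N) → ∃ a : AlgebraicClosure ℚ, JAt P a)
    (hU1 : StU1 A r) {P P' : Place (AlgebraicClosure ℚ) (modularFunctionFieldBar N)}
    (hV : h17_valRel A ℓ P P')
    (W : Place (AlgebraicClosure ℚ) (modularFunctionFieldBar M))
    (hW : W.restrictAlong (incL N M h) hint = P') : h17_esRelM ℓ P (r W) := by
  rcases h17_tricho (A := A) hvalN P with hc | ⟨b, hb, hP⟩
  · left
    refine ⟨hc, hU1.2 W ((h17_JCusp_over h hint W).mp ?_)⟩
    rw [hW]; exact hV.1 hc
  · right
    obtain ⟨a, ha, h1, h2⟩ := hV.2 b hb hP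
    refine ⟨b, hb, res A a ha, hP, hU1.1 W a ha ((h17_JAt_over h hint W a).mp ?_), h2⟩
    rw [hW]; exact h1

/-- **[ES-PLACE], mixed form**: `r_* ι^* (T_ℓ P - σ₀ P - ℓ σ₀⁻¹ P) = 0`. -/
theorem h17_esMixed
    [HasPrincipalDivisors (AlgebraicClosure ℚ) (modularFunctionFieldBar (N * ℓ))]
    [HasPrincipalDivisors (AlgebraicClosure ℚ) (modularFunctionFieldBar M)]
    (hvalN : ∀ P : Place (AlgebraicClosure ℚ) (modularFunctionFieldBar N),
      0 ≤ P.ord (jL N) → ∃ a : AlgebraicClosure ℚ, JAt P a)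
    (hvalM : ∀ P : Place (AlgebraicClosure ℚ) (modularFunctionFieldBar M),
      0 ≤ P.ord (jL M) → ∃ a : AlgebraicClosure ℚ, JAt P a)
    (hl : ℓ.Prime) (hA : A.LiesOverPrime ℓ)
    (hU1 : StU1 A r) (hSep : StSep A r) (hKron : StKron N ℓ A)
    (hint : (incL N M h).toRingHom.IsIntegral)
    (hfin : FiniteAlong (AlgebraicClosure ℚ) (incL N M h))
    (hFI : FundamentalIdentityAlong (AlgebraicClosure ℚ) (incL N M h) hint)
    (hNF : NormFormulaAlong (AlgebraicClosure ℚ) (incL N M h) hfin)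
    (hdegM : ∀ P : Place (AlgebraicClosure ℚ) (modularFunctionFieldBar M), P.deg = 1)
    (hdegN : ∀ P : Place (AlgebraicClosure ℚ) (modularFunctionFieldBar N), P.deg = 1)
    (σ₀ : AlgebraicClosure ℚ ≃ₐ[ℚ] AlgebraicClosure ℚ) (hσ₀ : A.IsFrobeniusAt σ₀ ℓ)
    (hα : HeckeAlphaBarIntegral (AlgebraicClosure ℚ) N ℓ)
    (hβ : HeckeBetaBarIntegral (AlgebraicClosure ℚ) N ℓ)
    (hprin : ∀ D : Divisor (AlgebraicClosure ℚ) (modularFunctionFieldBar N),
      Divisor.IsPrincipal D →
        Finsupp.mapDomain r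
          (Divisor.pullbackAlong (incL N M h) hint (h17_esOp hα hβ σ₀ D)) = 0)
    (P : Place (AlgebraicClosure ℚ) (modularFunctionFieldBar N)) :
    Finsupp.mapDomain r (Divisor.pullbackAlong (incL N M h) hint
      (heckeDivBar hα hβ (Finsupp.single P 1) -
        Finsupp.single (arithmeticGalois (modularFunctionFieldFull N) σ₀ • P) 1 -
        Finsupp.single ((arithmeticGalois (modularFunctionFieldFull N) σ₀)⁻¹ • P)
          (ℓ : ℤ))) = 0 := by
  classical
  set ι := incL N M h with hι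
  set g := arithmeticGalois (modularFunctionFieldFull N) σ₀ with hg
  set δ : Divisor (AlgebraicClosure ℚ) (modularFunctionFieldBar N) →+
      Divisor (IsLocalRing.ResidueField A)
        (modularFunctionFieldFullC (IsLocalRing.ResidueField A) M) :=
    (Finsupp.mapDomain.addMonoidHom r).comp
      ((Divisor.pullbackAlong ι hint).comp (h17_esOp hα hβ σ₀)) with hδ
  have hδapp : ∀ D, δ D =
      Finsupp.mapDomain r (Divisor.pullbackAlong ι hint (h17_esOp hα hβ σ₀ D)) := fun D => rfl
  -- every place of `F_N` has a place of `F_M` above it; inertia degrees are one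
  have hsurj : ∀ P : Place (AlgebraicClosure ℚ) (modularFunctionFieldBar N),
      ∃ W : Place (AlgebraicClosure ℚ) (modularFunctionFieldBar M),
        W.restrictAlong ι hint = P := fun P =>
    h17_exists_over ι hint hfin hFI P (by rw [hdegN P]; exact one_ne_zero)
  have hinert : ∀ W : Place (AlgebraicClosure ℚ) (modularFunctionFieldBar M),
      W.inertiaDegAlong ι hint ≠ 0 := by
    intro W h0
    letI := algebraAlong ι
    haveI := isScalarTower_along ι
    haveI := isIntegral_along ι hint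
    have h1 := W.deg_restrict_mul_inertiaDeg (F := modularFunctionFieldBar N)
    have h2 : W.inertiaDeg (modularFunctionFieldBar N) = 0 := h0
    rw [h2, mul_zero, hdegM W] at h1
    exact zero_ne_one h1
  -- support
  have hsupp : ∀ (P' : Place (AlgebraicClosure ℚ) (modularFunctionFieldBar N))
      (Q : Place (IsLocalRing.ResidueField A)
        (modularFunctionFieldFullC (IsLocalRing.ResidueField A) M)),
      δ (Finsupp.single P' 1) Q ≠ 0 → h17_esRelM ℓ P' Q := by
    intro P' Q hQ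
    rw [hδapp] at hQ
    obtain ⟨W, hW, hWQ⟩ := h17_pull_support ι hint r _ Q hQ
    rw [← hWQ]
    refine h17_esRelM_of_valRel h r hint hvalN hU1 ?_ W rfl
    rw [h17_esOp_single, Finsupp.sub_apply, Finsupp.sub_apply, Finsupp.single_apply,
      Finsupp.single_apply] at hW
    by_cases h1 : g • P' = W.restrictAlong ι hint
    · rw [← h1]; exact h17_valRel_frob hσ₀ P'
    by_cases h2 : g⁻¹ • P' = W.restrictAlong ι hint
    · rw [← h2]; exact h17_valRel_frob_inv hσ₀ P'
    rw [if_neg h1, if_neg h2, sub_zero, sub_zero] at hW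
    obtain ⟨W₂, hW₂β, hW₂α⟩ := h17_corr_support (heckeBetaBar (AlgebraicClosure ℚ) N ℓ)
      (heckeAlphaBar (AlgebraicClosure ℚ) N ℓ) hβ hα P' _ hW
    have := h17_valRel_hecke (A := A) hα hβ hKron W₂
    rw [hW₂β, hW₂α] at this
    exact this
  -- separation at level `M`
  have hsep : ∀ W : Place (AlgebraicClosure ℚ) (modularFunctionFieldBar M),
      ∃ f : modularFunctionFieldBar M, f ≠ 0 ∧ W.ord f ≠ 0 ∧
        ∀ W', W' ≠ W → W'.ord f ≠ 0 →
          W'.restrictAlong ι hint ≠ W.restrictAlong ι hint ∧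
            ∀ Q : Place (IsLocalRing.ResidueField A)
                (modularFunctionFieldFullC (IsLocalRing.ResidueField A) M),
              h17_esRelM ℓ (W.restrictAlong ι hint) Q →
                ¬ h17_esRelM ℓ (W'.restrictAlong ι hint) Q := by
    intro W
    rcases h17_tricho (A := A) hvalM W with hc | ⟨b, hb, hWb⟩
    · obtain ⟨f, hf, hWf, hs⟩ := hSep.2 W hc
      have hcN : JCusp A (W.restrictAlong ι hint) := (h17_JCusp_over h hint W).mpr hc
      refine ⟨f, hf, hWf, fun W' hne hW' => ⟨fun heq => ?_, fun Q hR hR' => ?_⟩⟩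
      · refine hs W' hne hW' (hU1.2 W' ((h17_JCusp_over h hint W').mp ?_))
        rw [heq]; exact hcN
      · have hQ : Q.ord (jk A M) < 0 := by
          rcases hR with ⟨-, hQ⟩ | ⟨b, hb, c', h1, -, -⟩
          · exact hQ
          · exact absurd hcN (h17_not_JCusp hb h1)
        rcases hR' with ⟨hc', -⟩ | ⟨b, hb, c', -, h2, -⟩
        · exact hs W' hne hW' (hU1.2 W' ((h17_JCusp_over h hint W').mp hc'))
        · exact h17_val_not_pole _ _ h2 hQ
    · obtain ⟨f, hf, hWf, hs⟩ := hSep.1 W (h17_not_JCusp hb hWb) (h17_esT ℓ (res A b hb))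
      have hbN : JAt (W.restrictAlong ι hint) b := (h17_JAt_over h hint W b).mpr hWb
      refine ⟨f, hf, hWf, fun W' hne hW' => ⟨fun heq => ?_, fun Q hR hR' => ?_⟩⟩
      · refine hs W' hne hW' (res A b hb) (h17_mem_esT_self ℓ _)
          (hU1.1 W' b hb ((h17_JAt_over h hint W' b).mp ?_))
        rw [heq]; exact hbN
      · rcases hR with ⟨hc, -⟩ | ⟨b₁, hb₁, w, h1, h2, h3⟩
        · exact h17_not_JCusp hb hbN hc
        have e1 : b₁ = b := h17_val_unique _ (jL N) h1 hbN
        rw [h17_res_congr e1 hb₁ hb] at h3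
        rcases hR' with ⟨-, hQ⟩ | ⟨b₂, hb₂, w', h1', h2', h3'⟩
        · exact h17_val_not_pole _ _ h2 hQ
        have e2 : w' = w := h17_val_unique _ (jk A M) h2' h2
        rw [e2] at h3'
        exact hs W' hne hW' (res A b₂ hb₂) (h17_mem_esT hl hA h3 h3')
          (hU1.1 W' b₂ hb₂ ((h17_JAt_over h hint W' b₂).mp h1'))
  have h0 := h17_move_norm ι hint hfin hNF hsurj hinert δ (h17_esRelM ℓ) hsupp
    (fun D hD => hprin D hD) hsep
  have h1 := hδapp (Finsupp.single P 1)
  rw [h0, AddMonoidHom.zero_apply, h17_esOp_single] at h1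
  exact h1.symm

end Main

end Fermat.Agent.S37x.Move.H17
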