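import Fermat.Agent.S37x.Move.H17_EsMixed
import Fermat.Agent.S37x.Move.H17_InertTop

/-!
# S37, package [MOVE] (iii'): the mixed Eichler–Shimura congruence, from `Asm.StFFL`

`h17_esMixed_top` : `h17_esMixed` with the function-field inputs packaged as `Asm.StFFL N M h`
and the existence of `j`-values discharged (S24).
-/

set_option autoImplicit false
set_option synthInstance.maxHeartbeats 400000
set_option maxHeartbeats 1000000

open HahnSeries IntermediateField AlgebraicCurve ModularCurve

noncomputable section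

namespace Fermat.Agent.S37x.Move.H17

open Fermat.Agent.S37x.Asm

variable {N M : ℕ} [NeZero N] [NeZero M] (h : N ∣ M) {ℓ : ℕ} [NeZero ℓ]
  {A : ValuationSubring (AlgebraicClosure ℚ)}

/-- **[ES-PLACE], mixed form**: for a place reduction `r` at level `M` with `[U1]`, `[SEP]`,
`r_* ι^* (T_ℓ P - σ₀ P - ℓ σ₀⁻¹ P) = 0` for every place `P` of `F_N`, if this holds for
principal divisors. -/
theorem h17_esMixed_top
    [HasPrincipalDivisors (AlgebraicClosure ℚ) (modularFunctionFieldBar (N * ℓ))]
    [HasPrincipalDivisors (AlgebraicClosure ℚ) (modularFunctionFieldBar M)]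
    (hl : ℓ.Prime) (hA : A.LiesOverPrime ℓ)
    (r : Place (AlgebraicClosure ℚ) (modularFunctionFieldBar M) →
      Place (IsLocalRing.ResidueField A)
        (modularFunctionFieldFullC (IsLocalRing.ResidueField A) M))
    (hU1 : StU1 A r) (hSep : StSep A r) (hKron : StKron N ℓ A) (hFFL : StFFL N M h)
    (hint : (incL N M h).toRingHom.IsIntegral)
    (σ₀ : AlgebraicClosure ℚ ≃ₐ[ℚ] AlgebraicClosure ℚ) (hσ₀ : A.IsFrobeniusAt σ₀ ℓ)
    (hα : HeckeAlphaBarIntegral (AlgebraicClosure ℚ) N ℓ)
    (hβ : HeckeBetaBarIntegral (AlgebraicClosure ℚ) N ℓ)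
    (hprin : ∀ D : Divisor (AlgebraicClosure ℚ) (modularFunctionFieldBar N),
      Divisor.IsPrincipal D →
        Finsupp.mapDomain r
          (Divisor.pullbackAlong (incL N M h) hint
            (heckeDivBar hα hβ D -
              arithmeticGalois (modularFunctionFieldFull N) σ₀ • D -
              (ℓ : ℤ) • ((arithmeticGalois (modularFunctionFieldFull N) σ₀)⁻¹ • D))) = 0)
    (P : Place (AlgebraicClosure ℚ) (modularFunctionFieldBar N)) :
    Finsupp.mapDomain r (Divisor.pullbackAlong (incL N M h) hint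
      (heckeDivBar hα hβ (Finsupp.single P 1) -
        Finsupp.single (arithmeticGalois (modularFunctionFieldFull N) σ₀ • P) 1 -
        Finsupp.single ((arithmeticGalois (modularFunctionFieldFull N) σ₀)⁻¹ • P)
          (ℓ : ℤ))) = 0 := by
  obtain ⟨hint', hPD, hfin, hFI, hNF, hdegM, hdegN⟩ := hFFL
  exact h17_esMixed h r (h17_hval N) (h17_hval M) hl hA hU1 hSep hKron hint hfin hFI hNF
    hdegM hdegN σ₀ hσ₀ hα hβ (fun D hD => hprin D hD) P

end Fermat.Agent.S37x.Move.H17
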