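import Fermat.Agent.S37x.Move.H17_EsPlace
import Fermat.Agent.S37x.Move.H17_InertTop

/-!
# S37, package [MOVE] (iii): `StES` and `StRedES` from the congruence on principal divisors

* `h17_stES` : `[U1]`, `[SEP]`, `[KRON]`, `[FF]` and the congruence
  `r_* T_ℓ D = r_* σ₀ D + ℓ · r_* σ₀⁻¹ D` for PRINCIPAL divisors `D` give `Asm.StES`;
* `h17_stRedES` : `Asm.StRed`, `[KRON]`, `[FF]`, a Frobenius element and the congruence for
  principal divisors give `Asm.StRedES`.
-/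

set_option autoImplicit false
set_option synthInstance.maxHeartbeats 400000
set_option maxHeartbeats 1000000

open HahnSeries IntermediateField AlgebraicCurve ModularCurve

noncomputable section

namespace Fermat.Agent.S37x.Move.H17

open Fermat.Agent.S37x.Asm

variable {N : ℕ} [NeZero N] {ℓ : ℕ} [NeZero ℓ] {A : ValuationSubring (AlgebraicClosure ℚ)}

/-- The congruence relation for principal divisors (the input `[ES-PRIN]`). -/
def H17EsPrin (N ℓ : ℕ) [NeZero N] [NeZero ℓ] (A : ValuationSubring (AlgebraicClosure ℚ))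
    (r : Place (AlgebraicClosure ℚ) (modularFunctionFieldBar N) →
      Place (IsLocalRing.ResidueField A)
        (modularFunctionFieldFullC (IsLocalRing.ResidueField A) N))
    (σ₀ : AlgebraicClosure ℚ ≃ₐ[ℚ] AlgebraicClosure ℚ) : Prop :=
  ∀ (hα : HeckeAlphaBarIntegral (AlgebraicClosure ℚ) N ℓ)
    (hβ : HeckeBetaBarIntegral (AlgebraicClosure ℚ) N ℓ)
    (_ : HasPrincipalDivisors (AlgebraicClosure ℚ) (modularFunctionFieldBar (N * ℓ)))
    (D : Divisor (AlgebraicClosure ℚ) (modularFunctionFieldBar N)),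
    Divisor.IsPrincipal D →
      Finsupp.mapDomain r (heckeDivBar hα hβ D) =
        Finsupp.mapDomain r (arithmeticGalois (modularFunctionFieldFull N) σ₀ • D) +
          (ℓ : ℤ) • Finsupp.mapDomain r
            ((arithmeticGalois (modularFunctionFieldFull N) σ₀)⁻¹ • D)

/-- **[ES]**: `Asm.StES` from the congruence for principal divisors. -/
theorem h17_stES (hl : ℓ.Prime) (hA : A.LiesOverPrime ℓ)
    (r : Place (AlgebraicClosure ℚ) (modularFunctionFieldBar N) →
      Place (IsLocalRing.ResidueField A)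
        (modularFunctionFieldFullC (IsLocalRing.ResidueField A) N))
    (hU1 : StU1 A r) (hSep : StSep A r) (hKron : StKron N ℓ A) (hFF : StFF N ℓ)
    (σ₀ : AlgebraicClosure ℚ ≃ₐ[ℚ] AlgebraicClosure ℚ) (hσ₀ : A.IsFrobeniusAt σ₀ ℓ)
    (hprin : H17EsPrin N ℓ A r σ₀) : StES N ℓ A r σ₀ := by
  obtain ⟨hα, hβ, hP, hfin, hFI, hNF⟩ := hFF
  have := Fermat.Agent.S18x.E.H12.h12_hasPrincipalDivisors_bar N
  exact ⟨hα, hβ, hP, hfin, hFI, hNF, fun P =>
    h17_esPlace r (h17_hval N) hl hA hU1 hSep hKron σ₀ hσ₀ hα hβ (hprin hα hβ hP) P⟩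

/-- **[RED+ES]**: `Asm.StRedES` from `Asm.StRed`, `[KRON]`, `[FF]`, a Frobenius element and the
congruence for principal divisors. -/
theorem h17_stRedES (hl : ℓ.Prime) (hA : A.LiesOverPrime ℓ) (hRed : StRed N A)
    (hKron : StKron N ℓ A) (hFF : StFF N ℓ)
    (hFrob : ∃ σ₀ : AlgebraicClosure ℚ ≃ₐ[ℚ] AlgebraicClosure ℚ, A.IsFrobeniusAt σ₀ ℓ)
    (hprin : ∀ r, IsPlaceReductionModL A N r →
      PrincipalGeneratedByIntegral A (IsLocalRing.residue A) N →
        ∀ σ₀ : AlgebraicClosure ℚ ≃ₐ[ℚ] AlgebraicClosure ℚ, A.IsFrobeniusAt σ₀ ℓ →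
          H17EsPrin N ℓ A r σ₀) :
    StRedES N ℓ A := by
  obtain ⟨r, hr, hgen, hU1, hSep⟩ := hRed
  obtain ⟨σ₀, hσ₀⟩ := hFrob
  exact ⟨r, hr, hgen, h17_inert_top r hr hgen hU1 hSep, σ₀, hσ₀,
    h17_stES hl hA r hU1 hSep hKron hFF σ₀ hσ₀ (hprin r hr hgen σ₀ hσ₀)⟩

end Fermat.Agent.S37x.Move.H17
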