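import Fermat.Agent.S37x.Move.H17_Move
import Fermat.Agent.S37x.Move.H17_Values

/-!
# S37, package [MOVE] (ii): inertia invariance of a place reduction (helper17)

`h17_inert` : a place reduction `r` with the properties `[U1]`, `[SEP]` satisfies
`r (τ • P) = r P` for every `τ` in the inertia group of `A`.

Proof: the moving lemma for `δ := r_* τ_* - r_*`.  `δ` kills the divisor of an integral `y`
(`τ_* div y = div (τ y)`, and `τ y` is integral with the same reduction as `y`), hence all
principal divisors (`PrincipalGeneratedByIntegral`); `δ (P')` is supported on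
`{r (τ P'), r P'}`, two places with the same `j̄`-value by `[U1]`.
-/

set_option autoImplicit false
set_option synthInstance.maxHeartbeats 400000
set_option maxHeartbeats 1000000

open HahnSeries IntermediateField AlgebraicCurve ModularCurve

noncomputable section

namespace Fermat.Agent.S37x.Move.H17

open Fermat.Agent.S37x.Asm

section Trichotomy

variable {N : ℕ} {A : ValuationSubring (AlgebraicClosure ℚ)}

/-- Every place is a cusp (for `A`) or `j` has a value in `A` there. -/
theorem h17_tricho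
    (hval : ∀ P : Place (AlgebraicClosure ℚ) (modularFunctionFieldBar N),
      0 ≤ P.ord (jL N) → ∃ a : AlgebraicClosure ℚ, JAt P a)
    (P : Place (AlgebraicClosure ℚ) (modularFunctionFieldBar N)) :
    JCusp A P ∨ ∃ (a : AlgebraicClosure ℚ) (_ : a ∈ A), JAt P a := by
  by_cases h : P.ord (jL N) < 0
  · exact Or.inl (Or.inl h)
  · obtain ⟨a, ha⟩ := hval P (not_lt.mp h)
    by_cases haA : a ∈ A
    · exact Or.inr ⟨a, haA, ha⟩
    · exact Or.inl (Or.inr ⟨a, haA, ha⟩)

/-- A place where `j` has a value in `A` is not a cusp. -/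
theorem h17_not_JCusp {P : Place (AlgebraicClosure ℚ) (modularFunctionFieldBar N)}
    {a : AlgebraicClosure ℚ} (ha : a ∈ A) (h : JAt P a) : ¬ JCusp A P := by
  rintro (h' | ⟨a', ha', h'⟩)
  · exact h17_val_not_pole P (jL N) h h'
  · exact ha' (h17_val_unique P (jL N) h h' ▸ ha)

end Trichotomy

section Reduction

variable {N : ℕ} {A : ValuationSubring (AlgebraicClosure ℚ)}

/-- The restriction to `A` of an element of the decomposition group. -/
def h17_resA {σ : AlgebraicClosure ℚ ≃ₐ[ℚ] AlgebraicClosure ℚ}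
    (hσ : σ ∈ A.decompositionSubgroup ℚ) : A →+* A :=
  RingHom.codRestrict ((σ : AlgebraicClosure ℚ →+* AlgebraicClosure ℚ).comp A.subtype) A
    (fun a => h17_mem_of_decomp hσ a.2)

theorem h17_subtype_comp_resA {σ : AlgebraicClosure ℚ ≃ₐ[ℚ] AlgebraicClosure ℚ}
    (hσ : σ ∈ A.decompositionSubgroup ℚ) :
    A.subtype.comp (h17_resA hσ) =
      (σ : AlgebraicClosure ℚ →+* AlgebraicClosure ℚ).comp A.subtype :=
  RingHom.ext fun _ => rfl

theorem h17_residue_comp_resA {τ : AlgebraicClosure ℚ ≃ₐ[ℚ] AlgebraicClosure ℚ}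
    (hτ : τ ∈ A.inertiaSubgroupIn ℚ) (hd : τ ∈ A.decompositionSubgroup ℚ) :
    (IsLocalRing.residue A).comp (h17_resA hd) = IsLocalRing.residue A := by
  refine RingHom.ext fun a => ?_
  exact h17_res_inertia hτ (a : AlgebraicClosure ℚ) a.2 (h17_mem_of_decomp hd a.2)

/-- `coeffMap` of the restricted automorphism. -/
theorem h17_coeffMap_resA {σ : AlgebraicClosure ℚ ≃ₐ[ℚ] AlgebraicClosure ℚ}
    (hσ : σ ∈ A.decompositionSubgroup ℚ) (y : LaurentSeries A) :
    coeffMap A.subtype (coeffMap (h17_resA hσ) y) =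
      coeffMap (σ : AlgebraicClosure ℚ →+* AlgebraicClosure ℚ) (coeffMap A.subtype y) := by
  rw [coeffMap_coeffMap, coeffMap_coeffMap, h17_subtype_comp_resA]

/-- The divisor of `g • f`. -/
theorem h17_smul_divisor {K F : Type*} [Field K] [Field F] [Algebra K F]
    (g : SemilinearAut K F) (D : Divisor K F) (f : F) (hD : ∀ P, D P = P.ord f)
    (P : Place K F) : (g • D) P = P.ord (g • f) := by
  rw [SemilinearAut.divisor_smul_apply, hD]
  have h := SemilinearAut.ord_smul g (g⁻¹ • P) f
  rw [smul_inv_smul] at h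
  exact h.symm

variable (r : Place (AlgebraicClosure ℚ) (modularFunctionFieldBar N) →
  Place (IsLocalRing.ResidueField A) (modularFunctionFieldFullC (IsLocalRing.ResidueField A) N))

/-- `r_* (τ_* D) = r_* D` for the divisor `D` of an integral function, `τ` in inertia. -/
theorem h17_inert_integral (hr : IsPlaceReductionModL A N r)
    {τ : AlgebraicClosure ℚ ≃ₐ[ℚ] AlgebraicClosure ℚ} (hτ : τ ∈ A.inertiaSubgroupIn ℚ)
    {D : Divisor (AlgebraicClosure ℚ) (modularFunctionFieldBar N)}
    (hD : D ∈ integralPrincipalDivisors A (IsLocalRing.residue A) N) :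
    Finsupp.mapDomain r (arithmeticGalois (modularFunctionFieldFull N) τ • D) =
      Finsupp.mapDomain r D := by
  obtain ⟨hd, -⟩ := (H13.mem_inertiaSubgroupIn_iff A τ).mp hτ
  obtain ⟨y, hy, hyk, hne, hDy⟩ := hD
  have e1 : coeffMap A.subtype (coeffMap (h17_resA hd) y) =
      coeffMap (τ : AlgebraicClosure ℚ →+* AlgebraicClosure ℚ) (coeffMap A.subtype y) :=
    h17_coeffMap_resA hd y
  have e2 : coeffMap (IsLocalRing.residue A) (coeffMap (h17_resA hd) y) =
      coeffMap (IsLocalRing.residue A) y := by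
    rw [coeffMap_coeffMap, h17_residue_comp_resA hτ hd]
  have hy' : coeffMap A.subtype (coeffMap (h17_resA hd) y) ∈ modularFunctionFieldBar N := by
    rw [e1]
    exact coeffMap_mem_laurentBaseChange τ hy
  have hyk' : coeffMap (IsLocalRing.residue A) (coeffMap (h17_resA hd) y) ∈
      modularFunctionFieldFullC (IsLocalRing.ResidueField A) N := by
    rw [e2]; exact hyk
  have hne' : coeffMap (IsLocalRing.residue A) (coeffMap (h17_resA hd) y) ≠ 0 := by
    rw [e2]; exact hne
  have hD' : ∀ P, (arithmeticGalois (modularFunctionFieldFull N) τ • D) P =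
      P.ord (⟨coeffMap A.subtype (coeffMap (h17_resA hd) y), hy'⟩ :
        modularFunctionFieldBar N) := by
    intro P
    rw [h17_smul_divisor _ D _ hDy P]
    exact congrArg P.ord (Subtype.ext e1.symm)
  ext Q
  rw [hr.2 y hy hyk hne D hDy Q, hr.2 _ hy' hyk' hne' _ hD' Q]
  exact congrArg Q.ord (Subtype.ext e2)

end Reduction

section Main

variable {N : ℕ} {A : ValuationSubring (AlgebraicClosure ℚ)}

/-- The relation "same `j̄`-values, same pole status" on the places of the special fibre. -/
def h17_sameJ (Q₁ Q : Place (IsLocalRing.ResidueField A)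
    (modularFunctionFieldFullC (IsLocalRing.ResidueField A) N)) : Prop :=
  (∀ c : IsLocalRing.ResidueField A, JbarAt Q₁ c ↔ JbarAt Q c) ∧
    (Q₁.ord (jk A N) < 0 ↔ Q.ord (jk A N) < 0)

theorem h17_sameJ_refl (Q : Place (IsLocalRing.ResidueField A)
    (modularFunctionFieldFullC (IsLocalRing.ResidueField A) N)) : h17_sameJ Q Q :=
  ⟨fun _ => Iff.rfl, Iff.rfl⟩

/-- Two places with the same `j̄`-value are related. -/
theorem h17_sameJ_of_val {Q₁ Q : Place (IsLocalRing.ResidueField A)
    (modularFunctionFieldFullC (IsLocalRing.ResidueField A) N)}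
    {c : IsLocalRing.ResidueField A} (h₁ : JbarAt Q₁ c) (h : JbarAt Q c) : h17_sameJ Q₁ Q := by
  refine ⟨fun c' => ⟨fun h' => ?_, fun h' => ?_⟩, ⟨fun h' => ?_, fun h' => ?_⟩⟩
  · rw [h17_val_unique Q₁ (jk A N) h' h₁]; exact h
  · rw [h17_val_unique Q (jk A N) h' h]; exact h₁
  · exact absurd h' (h17_val_not_pole Q₁ (jk A N) h₁)
  · exact absurd h' (h17_val_not_pole Q (jk A N) h)

/-- Two poles of `j̄` are related. -/
theorem h17_sameJ_of_pole {Q₁ Q : Place (IsLocalRing.ResidueField A)
    (modularFunctionFieldFullC (IsLocalRing.ResidueField A) N)}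
    (h₁ : Q₁.ord (jk A N) < 0) (h : Q.ord (jk A N) < 0) : h17_sameJ Q₁ Q := by
  refine ⟨fun c' => ⟨fun h' => ?_, fun h' => ?_⟩, ⟨fun _ => h, fun _ => h₁⟩⟩
  · exact absurd h₁ (h17_val_not_pole Q₁ (jk A N) h')
  · exact absurd h (h17_val_not_pole Q (jk A N) h')

variable (r : Place (AlgebraicClosure ℚ) (modularFunctionFieldBar N) →
  Place (IsLocalRing.ResidueField A) (modularFunctionFieldFullC (IsLocalRing.ResidueField A) N))

/-- **[INERT]**: a place reduction with `[U1]` and `[SEP]` is invariant under inertia. -/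
theorem h17_inert [HasPrincipalDivisors (AlgebraicClosure ℚ) (modularFunctionFieldBar N)]
    (hval : ∀ P : Place (AlgebraicClosure ℚ) (modularFunctionFieldBar N),
      0 ≤ P.ord (jL N) → ∃ a : AlgebraicClosure ℚ, JAt P a)
    (hr : IsPlaceReductionModL A N r)
    (hgen : PrincipalGeneratedByIntegral A (IsLocalRing.residue A) N)
    (hU1 : StU1 A r) (hSep : StSep A r)
    (τ : AlgebraicClosure ℚ ≃ₐ[ℚ] AlgebraicClosure ℚ) (hτ : τ ∈ A.inertiaSubgroupIn ℚ)
    (P : Place (AlgebraicClosure ℚ) (modularFunctionFieldBar N)) :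
    r (arithmeticGalois (modularFunctionFieldFull N) τ • P) = r P := by
  classical
  obtain ⟨hd, -⟩ := (H13.mem_inertiaSubgroupIn_iff A τ).mp hτ
  set g := arithmeticGalois (modularFunctionFieldFull N) τ with hg
  set δ : Divisor (AlgebraicClosure ℚ) (modularFunctionFieldBar N) →+
      Divisor (IsLocalRing.ResidueField A)
        (modularFunctionFieldFullC (IsLocalRing.ResidueField A) N) :=
    (Finsupp.mapDomain.addMonoidHom r).comp
        (DistribSMul.toAddMonoidHom (Divisor (AlgebraicClosure ℚ) (modularFunctionFieldBar N)) g) -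
      Finsupp.mapDomain.addMonoidHom r with hδ
  have hδapp : ∀ D, δ D = Finsupp.mapDomain r (g • D) - Finsupp.mapDomain r D := fun D => rfl
  have hδs : ∀ P', δ (Finsupp.single P' 1) =
      Finsupp.single (r (g • P')) 1 - Finsupp.single (r P') 1 := by
    intro P'
    rw [hδapp, SemilinearAut.smul_single, Finsupp.mapDomain_single, Finsupp.mapDomain_single]
  -- `δ` kills the principal divisors
  have hprin : ∀ D : Divisor (AlgebraicClosure ℚ) (modularFunctionFieldBar N),
      Divisor.IsPrincipal D → δ D = 0 := by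
    intro D hD
    have hD' := hgen (Divisor.mem_principal.mpr hD)
    clear hD
    induction hD' using AddSubgroup.closure_induction with
    | mem E hE => rw [hδapp, h17_inert_integral r hr hτ hE, sub_self]
    | zero => exact map_zero δ
    | add E E' _ _ hE hE' => rw [map_add, hE, hE', add_zero]
    | neg E _ hE => rw [map_neg, hE, neg_zero]
  -- the two places `r P'`, `r (τ P')` have the same `j̄`-value
  have hsame : ∀ P', h17_sameJ (r P') (r (g • P')) := by
    intro P'
    rcases h17_tricho (A := A) hval P' with hc | ⟨a, ha, hP'⟩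
    · exact h17_sameJ_of_pole (hU1.2 P' hc) (hU1.2 _ (h17_JCusp_smul hd hc))
    · have h1 := hU1.1 P' a ha hP'
      have h2 := hU1.1 _ (τ a) (h17_mem_of_decomp hd ha) (h17_JAt_smul τ hP')
      rw [h17_res_inertia hτ a ha] at h2
      exact h17_sameJ_of_val h1 h2
  have hsupp : ∀ (P' : Place (AlgebraicClosure ℚ) (modularFunctionFieldBar N))
      (Q : Place (IsLocalRing.ResidueField A)
        (modularFunctionFieldFullC (IsLocalRing.ResidueField A) N)),
      δ (Finsupp.single P' 1) Q ≠ 0 → h17_sameJ (r P') Q := by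
    intro P' Q hQ
    rw [hδs, Finsupp.sub_apply, Finsupp.single_apply, Finsupp.single_apply] at hQ
    by_cases h1 : r P' = Q
    · rw [← h1]; exact h17_sameJ_refl _
    · by_cases h2 : r (g • P') = Q
      · rw [← h2]; exact hsame P'
      · rw [if_neg h1, if_neg h2, sub_zero] at hQ
        exact absurd rfl hQ
  -- separation
  have hsep : ∀ P : Place (AlgebraicClosure ℚ) (modularFunctionFieldBar N),
      ∃ f : modularFunctionFieldBar N, f ≠ 0 ∧ P.ord f ≠ 0 ∧
        ∀ P', P' ≠ P → P'.ord f ≠ 0 → ∀ Q, h17_sameJ (r P) Q → ¬ h17_sameJ (r P') Q := by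
    intro P
    rcases h17_tricho (A := A) hval P with hc | ⟨a, ha, hP⟩
    · obtain ⟨f, hf, hPf, hs⟩ := hSep.2 P hc
      refine ⟨f, hf, hPf, fun P' hne hP' Q hZ hZ' => hs P' hne hP' ?_⟩
      exact hZ'.2.mpr (hZ.2.mp (hU1.2 P hc))
    · obtain ⟨f, hf, hPf, hs⟩ := hSep.1 P (h17_not_JCusp ha hP) {res A a ha}
      refine ⟨f, hf, hPf, fun P' hne hP' Q hZ hZ' =>
        hs P' hne hP' (res A a ha) (Finset.mem_singleton_self _) ?_⟩
      exact (hZ'.1 _).mpr ((hZ.1 _).mp (hU1.1 P a ha hP))
  have h0 := h17_move_fun r δ h17_sameJ hsupp hprin hsep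
  have h1 := hδs P
  rw [h0, AddMonoidHom.zero_apply] at h1
  exact Finsupp.single_left_injective one_ne_zero (sub_eq_zero.mp h1.symm)

end Main

end Fermat.Agent.S37x.Move.H17
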