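import Mathlib
import Fermat.Prelude.Def_AlgebraicCurve_DivisorClassGroup

/-!
# S37, package [MOVE]: the moving lemma (helper17)

`r : Place K F → Place k F'` a map on places (the reduction), `δ : Divisor K F →+ Divisor k F'`
an additive map with the SUPPORT CONSTRAINT

  `δ (single P' 1) Q ≠ 0 → Zrel (r P') Q`

for a relation `Zrel` on the places of the special fibre (in the application
`Zrel Q₁ Q := j̄ (Q) ∈ Z (j̄ (Q₁))`, `Z (c) = {c ^ ℓ, c ^ (1 / ℓ)}` for the Eichler–Shimura
congruence, `Z (c) = {c}` for the inertia invariance).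

* `h17_move` : if for the place `P` there is a function `f` with divisor `D`, `δ D = 0`,
  `r_* D = div f̄`, `0 < ord_P f`, `f` regular at all places reducing into
  `B := {Q' | ∃ Q, Zrel (r P) Q ∧ Zrel Q' Q}`, `ord_{r P} f̄ = 1` and `ord_{Q'} f̄ = 0` for
  `Q' ∈ B`, `Q' ≠ r P`, then `δ (single P 1) = 0`.
* `h17_move_all` : hence `δ = 0` if such an `f` exists for every `P`.
-/

set_option autoImplicit false

open AlgebraicCurve

namespace Fermat.Agent.S37x.Move.H17

variable {K F k F' : Type*} [Field K] [Field F] [Algebra K F] [Field k] [Field F']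
  [Algebra k F']

open Classical in
/-- The value of `r_* D` at `Q` is the sum of `D` over the fibre of `r` over `Q`. -/
theorem h17_mapDomain_apply (r : Place K F → Place k F') (D : Divisor K F) (Q : Place k F') :
    Finsupp.mapDomain r D Q = ∑ P' ∈ D.support, if r P' = Q then D P' else 0 := by
  rw [Finsupp.mapDomain, Finsupp.sum, Finsupp.finsetSum_apply]
  apply Finset.sum_congr rfl
  intro P' _
  rw [Finsupp.single_apply]

/-- An additive map on divisors is determined by its values on the places. -/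
theorem h17_delta_apply (δ : Divisor K F →+ Divisor k F') (D : Divisor K F) :
    δ D = ∑ P' ∈ D.support, D P' • δ (Finsupp.single P' 1) := by
  classical
  conv_lhs => rw [← Finsupp.sum_single D]
  rw [Finsupp.sum, map_sum]
  apply Finset.sum_congr rfl
  intro P' _
  rw [← map_zsmul, Finsupp.smul_single, smul_eq_mul, mul_one]

/-- **The moving lemma** at one place. -/
theorem h17_move (r : Place K F → Place k F') (δ : Divisor K F →+ Divisor k F')
    (Zrel : Place k F' → Place k F' → Prop)
    (hsupp : ∀ (P' : Place K F) (Q : Place k F'),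
      δ (Finsupp.single P' 1) Q ≠ 0 → Zrel (r P') Q)
    (P : Place K F) (f : F) (D : Divisor K F) (hD : ∀ P', D P' = P'.ord f) (hδD : δ D = 0)
    (fbar : F') (hred : ∀ Q, Finsupp.mapDomain r D Q = Q.ord fbar)
    (hP : 0 < P.ord f)
    (hnonneg : ∀ P', (∃ Q, Zrel (r P) Q ∧ Zrel (r P') Q) → 0 ≤ P'.ord f)
    (hbarP : (r P).ord fbar = 1)
    (hbar : ∀ Q', (∃ Q, Zrel (r P) Q ∧ Zrel Q' Q) → Q' ≠ r P → Q'.ord fbar = 0) :
    δ (Finsupp.single P 1) = 0 := by
  classical
  -- the values of `D` on the places reducing into `B`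
  have hfib : ∀ Q', (∃ Q, Zrel (r P) Q ∧ Zrel Q' Q) →
      ∑ P' ∈ D.support, (if r P' = Q' then D P' else 0) = Q'.ord fbar := by
    intro Q' _
    rw [← h17_mapDomain_apply, hred]
  have hterm : ∀ Q', (∃ Q, Zrel (r P) Q ∧ Zrel Q' Q) →
      ∀ P' ∈ D.support, 0 ≤ (if r P' = Q' then D P' else 0) := by
    intro Q' hQ' P' _
    split_ifs with h
    · rw [hD]
      exact hnonneg P' (h ▸ hQ')
    · exact le_refl 0
  -- `D P' = 0` for `P' ≠ P` reducing into `B`, and `D P = 1` (if `r P ∈ B`)
  have hzero : ∀ P', (∃ Q, Zrel (r P) Q ∧ Zrel (r P') Q) → P' ≠ P → D P' = 0 := by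
    intro P' hP' hne
    by_contra hDP'
    have hmem : P' ∈ D.support := Finsupp.mem_support_iff.mpr hDP'
    have hpos : 0 < D P' := lt_of_le_of_ne (by rw [hD]; exact hnonneg P' hP') (Ne.symm hDP')
    by_cases hQ : r P' = r P
    · -- the fibre over `r P` contains `P` and `P'`
      have hDP : 0 < D P := by rw [hD]; exact hP
      have hmemP : P ∈ D.support := Finsupp.mem_support_iff.mpr hDP.ne'
      have hsum := hfib (r P') hP'
      rw [hQ, hbarP] at hsum
      have hle : (if r P = r P then D P else 0) + (if r P' = r P then D P' else 0) ≤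
          ∑ P'' ∈ D.support, (if r P'' = r P then D P'' else 0) := by
        have hsub : ({P, P'} : Finset (Place K F)) ⊆ D.support := by
          intro x hx
          rcases Finset.mem_insert.mp hx with rfl | hx
          · exact hmemP
          · rw [Finset.mem_singleton.mp hx]; exact hmem
        have := Finset.sum_le_sum_of_subset_of_nonneg hsub
          (f := fun P'' => if r P'' = r P then D P'' else 0)
          (fun x hx _ => hterm (r P) (hQ ▸ hP') x hx)
        rwa [Finset.sum_pair (Ne.symm hne)] at this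
      rw [if_pos rfl, if_pos hQ] at hle
      omega
    · have hsum := hfib (r P') hP'
      rw [hbar (r P') hP' hQ] at hsum
      have hle : (if r P' = r P' then D P' else 0) ≤
          ∑ P'' ∈ D.support, (if r P'' = r P' then D P'' else 0) :=
        Finset.single_le_sum (f := fun P'' => if r P'' = r P' then D P'' else 0)
          (fun x hx => hterm (r P') hP' x hx) hmem
      rw [if_pos rfl, hsum] at hle
      omega
  have hone : (∃ Q, Zrel (r P) Q) → D P = 1 := by
    rintro ⟨Q, hQ⟩
    have hB : ∃ Q, Zrel (r P) Q ∧ Zrel (r P) Q := ⟨Q, hQ, hQ⟩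
    have hDP : 0 < D P := by rw [hD]; exact hP
    have hmemP : P ∈ D.support := Finsupp.mem_support_iff.mpr hDP.ne'
    have hsum := hfib (r P) hB
    rw [hbarP] at hsum
    rw [Finset.sum_eq_single_of_mem P hmemP] at hsum
    · rwa [if_pos rfl] at hsum
    · intro P' _ hne
      split_ifs with h
      · exact hzero P' ⟨Q, hQ, h ▸ hQ⟩ hne
      · rfl
  -- evaluate `δ D = 0` at `Q`
  ext Q
  rw [Finsupp.zero_apply]
  by_contra hQ
  have hZ : Zrel (r P) Q := hsupp P Q hQ
  have hDP : D P = 1 := hone ⟨Q, hZ⟩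
  have hmemP : P ∈ D.support := Finsupp.mem_support_iff.mpr (by rw [hDP]; exact one_ne_zero)
  have h0 : (δ D) Q = 0 := by rw [hδD, Finsupp.zero_apply]
  rw [h17_delta_apply δ D, Finsupp.finsetSum_apply, Finset.sum_eq_single_of_mem P hmemP] at h0
  · rw [hDP, one_smul] at h0
    exact hQ h0
  · intro P' _ hne
    rw [Finsupp.smul_apply, smul_eq_mul]
    by_cases h : δ (Finsupp.single P' 1) Q = 0
    · rw [h, mul_zero]
    · rw [hzero P' ⟨Q, hZ, hsupp P' Q h⟩ hne, zero_mul]

/-- **The moving lemma**: `δ = 0`. -/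
theorem h17_move_all (r : Place K F → Place k F') (δ : Divisor K F →+ Divisor k F')
    (Zrel : Place k F' → Place k F' → Prop)
    (hsupp : ∀ (P' : Place K F) (Q : Place k F'),
      δ (Finsupp.single P' 1) Q ≠ 0 → Zrel (r P') Q)
    (hmove : ∀ P : Place K F, ∃ (f : F) (D : Divisor K F) (fbar : F'),
      (∀ P', D P' = P'.ord f) ∧ δ D = 0 ∧ (∀ Q, Finsupp.mapDomain r D Q = Q.ord fbar) ∧
      0 < P.ord f ∧ (∀ P', (∃ Q, Zrel (r P) Q ∧ Zrel (r P') Q) → 0 ≤ P'.ord f) ∧
      (r P).ord fbar = 1 ∧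
      ∀ Q', (∃ Q, Zrel (r P) Q ∧ Zrel Q' Q) → Q' ≠ r P → Q'.ord fbar = 0) :
    δ = 0 := by
  classical
  have hP : ∀ P : Place K F, δ (Finsupp.single P 1) = 0 := by
    intro P
    obtain ⟨f, D, fbar, hD, hδD, hred, hPf, hnonneg, hbarP, hbar⟩ := hmove P
    exact h17_move r δ Zrel hsupp P f D hD hδD fbar hred hPf hnonneg hbarP hbar
  refine AddMonoidHom.ext fun D => ?_
  rw [h17_delta_apply δ D, AddMonoidHom.zero_apply]
  apply Finset.sum_eq_zero
  intro P' _
  rw [hP P', smul_zero]

/-! ### The separation form (matches `Fermat.Agent.S37x.Asm.StSep`) -/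

/-- **The moving lemma, separation form**, at one place: if `δ` kills a divisor `D` with
`D P ≠ 0` all of whose other places `P'` are separated from `P`
(`Zrel (r P) Q → ¬ Zrel (r P') Q`), then `δ (single P 1) = 0`. -/
theorem h17_move_sep (r : Place K F → Place k F') (δ : Divisor K F →+ Divisor k F')
    (Zrel : Place k F' → Place k F' → Prop)
    (hsupp : ∀ (P' : Place K F) (Q : Place k F'),
      δ (Finsupp.single P' 1) Q ≠ 0 → Zrel (r P') Q)
    (P : Place K F) (D : Divisor K F) (hδD : δ D = 0) (hDP : D P ≠ 0)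
    (hsep : ∀ P', P' ≠ P → D P' ≠ 0 → ∀ Q, Zrel (r P) Q → ¬ Zrel (r P') Q) :
    δ (Finsupp.single P 1) = 0 := by
  classical
  ext Q
  rw [Finsupp.zero_apply]
  by_contra hQ
  have hZ : Zrel (r P) Q := hsupp P Q hQ
  have hmemP : P ∈ D.support := Finsupp.mem_support_iff.mpr hDP
  have h0 : (δ D) Q = 0 := by rw [hδD, Finsupp.zero_apply]
  rw [h17_delta_apply δ D, Finsupp.finsetSum_apply, Finset.sum_eq_single_of_mem P hmemP] at h0
  · rw [Finsupp.smul_apply, smul_eq_mul] at h0
    rcases mul_eq_zero.mp h0 with h | h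
    · exact hDP h
    · exact hQ h
  · intro P' hP' hne
    rw [Finsupp.smul_apply, smul_eq_mul]
    by_cases h : δ (Finsupp.single P' 1) Q = 0
    · rw [h, mul_zero]
    · exact absurd (hsupp P' Q h) (hsep P' hne (Finsupp.mem_support_iff.mp hP') Q hZ)

/-- **The moving lemma, separation form**: `δ = 0`. -/
theorem h17_move_sep_all (r : Place K F → Place k F') (δ : Divisor K F →+ Divisor k F')
    (Zrel : Place k F' → Place k F' → Prop)
    (hsupp : ∀ (P' : Place K F) (Q : Place k F'),
      δ (Finsupp.single P' 1) Q ≠ 0 → Zrel (r P') Q)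
    (hsep : ∀ P : Place K F, ∃ D : Divisor K F, δ D = 0 ∧ D P ≠ 0 ∧
      ∀ P', P' ≠ P → D P' ≠ 0 → ∀ Q, Zrel (r P) Q → ¬ Zrel (r P') Q) :
    δ = 0 := by
  classical
  have hP : ∀ P : Place K F, δ (Finsupp.single P 1) = 0 := by
    intro P
    obtain ⟨D, hδD, hDP, hs⟩ := hsep P
    exact h17_move_sep r δ Zrel hsupp P D hδD hDP hs
  refine AddMonoidHom.ext fun D => ?_
  rw [h17_delta_apply δ D, AddMonoidHom.zero_apply]
  apply Finset.sum_eq_zero
  intro P' _
  rw [hP P', smul_zero]

/-- **The moving lemma, function form**: `δ` kills the principal divisors, and for every place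
`P` there is a function `f ≠ 0` with `ord_P f ≠ 0` whose other zeros and poles are separated
from `P`; then `δ = 0`. -/
theorem h17_move_fun [HasPrincipalDivisors K F] (r : Place K F → Place k F')
    (δ : Divisor K F →+ Divisor k F') (Zrel : Place k F' → Place k F' → Prop)
    (hsupp : ∀ (P' : Place K F) (Q : Place k F'),
      δ (Finsupp.single P' 1) Q ≠ 0 → Zrel (r P') Q)
    (hprin : ∀ D : Divisor K F, Divisor.IsPrincipal D → δ D = 0)
    (hsep : ∀ P : Place K F, ∃ f : F, f ≠ 0 ∧ P.ord f ≠ 0 ∧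
      ∀ P', P' ≠ P → P'.ord f ≠ 0 → ∀ Q, Zrel (r P) Q → ¬ Zrel (r P') Q) :
    δ = 0 := by
  refine h17_move_sep_all r δ Zrel hsupp fun P => ?_
  obtain ⟨f, hf, hPf, hs⟩ := hsep P
  obtain ⟨D, hD, -⟩ := HasPrincipalDivisors.exists_divisor (K := K) f hf
  refine ⟨D, hprin D ⟨f, hf, hD⟩, by rw [hD]; exact hPf, fun P' hne hDP' Q hZ => ?_⟩
  rw [hD] at hDP'
  exact hs P' hne hDP' Q hZ

/-- The value-map form of the support/separation hypotheses: `val : Place k F' → V` (the
`j̄`-value, `V = Option k`), `Z` a relation on `V`, `Zrel Q₁ Q := Z (val Q₁) (val Q)`; the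
separation asks that the other zeros and poles of `f` reduce to places whose values avoid the
set `T (val (r P))`, where `T v ⊇ {v' | ∃ w, Z v w ∧ Z v' w}`. -/
theorem h17_move_val [HasPrincipalDivisors K F] {V : Type*} (r : Place K F → Place k F')
    (δ : Divisor K F →+ Divisor k F') (val : Place k F' → V) (Z : V → V → Prop)
    (hsupp : ∀ (P' : Place K F) (Q : Place k F'),
      δ (Finsupp.single P' 1) Q ≠ 0 → Z (val (r P')) (val Q))
    (hprin : ∀ D : Divisor K F, Divisor.IsPrincipal D → δ D = 0)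
    (hsep : ∀ P : Place K F, ∃ f : F, f ≠ 0 ∧ P.ord f ≠ 0 ∧
      ∀ P', P' ≠ P → P'.ord f ≠ 0 → ∀ w, Z (val (r P)) w → ¬ Z (val (r P')) w) :
    δ = 0 := by
  refine h17_move_fun r δ (fun Q₁ Q => Z (val Q₁) (val Q)) hsupp hprin fun P => ?_
  obtain ⟨f, hf, hPf, hs⟩ := hsep P
  exact ⟨f, hf, hPf, fun P' hne hP' Q hZ => hs P' hne hP' (val Q) hZ⟩

end Fermat.Agent.S37x.Move.H17
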