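import Fermat.Agent.S37x.Move.H17_Move
import Fermat.Prelude.Def_AlgebraicCurve_Correspondence

/-!
# S37, package [MOVE]: the moving lemma for a relation, and with norms (helper17)

* `h17_move_rel` : the moving lemma for a relation `R : Place K F → Place k Fk → Prop`
  (no map on places is needed);
* `h17_exists_over` : every place has a place above it (from the fundamental identity);
* `h17_move_norm` : the MIXED form.  `φ : F → F'` finite with the norm formula,
  `δ : Div F →+ Div Fk` kills the principal divisors, and the separating functions `g` live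
  in `F'`: for every place `P̃` of `F'` there is `g ≠ 0` with `ord_{P̃} g ≠ 0` all of whose
  other zeros and poles `P̃'` restrict to places `P' ≠ P` of `F` which are separated from
  `P = P̃|F`.  Then `δ = 0` (apply `δ` to the divisor of `Norm g`).
-/

set_option autoImplicit false
set_option linter.style.haveILetI false

open AlgebraicCurve

namespace Fermat.Agent.S37x.Move.H17

variable {K F k Fk : Type*} [Field K] [Field F] [Algebra K F] [Field k] [Field Fk]
  [Algebra k Fk]

/-- **The moving lemma** for a relation between the places of `F` and of `Fk`. -/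
theorem h17_move_rel (δ : Divisor K F →+ Divisor k Fk)
    (R : Place K F → Place k Fk → Prop)
    (hsupp : ∀ (P' : Place K F) (Q : Place k Fk), δ (Finsupp.single P' 1) Q ≠ 0 → R P' Q)
    (hsep : ∀ P : Place K F, ∃ D : Divisor K F, δ D = 0 ∧ D P ≠ 0 ∧
      ∀ P', P' ≠ P → D P' ≠ 0 → ∀ Q, R P Q → ¬ R P' Q) :
    δ = 0 := by
  classical
  have hP : ∀ P : Place K F, δ (Finsupp.single P 1) = 0 := by
    intro P
    obtain ⟨D, hδD, hDP, hs⟩ := hsep P
    ext Q
    rw [Finsupp.zero_apply]
    by_contra hQ
    have hZ : R P Q := hsupp P Q hQ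
    have hmemP : P ∈ D.support := Finsupp.mem_support_iff.mpr hDP
    have h0 : (δ D) Q = 0 := by rw [hδD, Finsupp.zero_apply]
    rw [h17_delta_apply δ D, Finsupp.finsetSum_apply, Finset.sum_eq_single_of_mem P hmemP]
      at h0
    · rw [Finsupp.smul_apply, smul_eq_mul] at h0
      rcases mul_eq_zero.mp h0 with h | h
      · exact hDP h
      · exact hQ h
    · intro P' hP' hne
      rw [Finsupp.smul_apply, smul_eq_mul]
      by_cases h : δ (Finsupp.single P' 1) Q = 0
      · rw [h, mul_zero]
      · exact absurd (hsupp P' Q h) (hs P' hne (Finsupp.mem_support_iff.mp hP') Q hZ)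
  refine AddMonoidHom.ext fun D => ?_
  rw [h17_delta_apply δ D, AddMonoidHom.zero_apply]
  apply Finset.sum_eq_zero
  intro P' _
  rw [hP P', smul_zero]

section Norm

variable {F' : Type*} [Field F'] [Algebra K F']

/-- The value of a push-forward at a place. -/
theorem h17_pushforwardAlong_apply (φ : F →ₐ[K] F') (hφ : φ.toRingHom.IsIntegral)
    (D : Divisor K F') (v : Place K F) :
    Divisor.pushforwardAlong φ hφ D v =
      ∑ w ∈ D.support,
        open Classical in
        if w.restrictAlong φ hφ = v then D w * (w.inertiaDegAlong φ hφ : ℤ) else 0 := by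
  classical
  letI := algebraAlong φ
  haveI := isScalarTower_along φ
  haveI := isIntegral_along φ hφ
  exact Divisor.pushforward_apply D v

/-- Every place of `F` has a place of `F'` above it. -/
theorem h17_exists_over [HasPrincipalDivisors K F'] (φ : F →ₐ[K] F')
    (hφ : φ.toRingHom.IsIntegral) (hfin : FiniteAlong K φ)
    (hFI : FundamentalIdentityAlong K φ hφ) (P : Place K F) (hdeg : P.deg ≠ 0) :
    ∃ W : Place K F', W.restrictAlong φ hφ = P := by
  classical
  by_contra hcon
  push Not at hcon
  have hempty : Place.fiberAlong φ hφ P = ∅ := by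
    rw [Finset.eq_empty_iff_forall_notMem]
    intro W hW
    exact hcon W (Place.mem_fiberAlong.mp hW)
  have h1 := Divisor.degree_pullbackAlong φ hφ hFI (Finsupp.single P 1)
  rw [Divisor.pullbackAlong_single, hempty, Finset.sum_empty, map_zero,
    Divisor.degree_single, one_mul] at h1
  have hpos : 0 < finrankAlong K φ := by
    letI := algebraAlong φ
    haveI : Module.Finite F F' := hfin
    exact Module.finrank_pos
  have h2 : (finrankAlong K φ : ℤ) * (P.deg : ℤ) ≠ 0 :=
    mul_ne_zero (by exact_mod_cast hpos.ne') (by exact_mod_cast hdeg)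
  exact h2 h1.symm

/-- **The moving lemma, mixed form** (separating functions in the extension `F'`, moved down by
the norm). -/
theorem h17_move_norm [HasPrincipalDivisors K F'] (φ : F →ₐ[K] F')
    (hφ : φ.toRingHom.IsIntegral) (hfin : FiniteAlong K φ) (hNF : NormFormulaAlong K φ hfin)
    (hsurj : ∀ P : Place K F, ∃ W : Place K F', W.restrictAlong φ hφ = P)
    (hinert : ∀ W : Place K F', W.inertiaDegAlong φ hφ ≠ 0)
    (δ : Divisor K F →+ Divisor k Fk) (R : Place K F → Place k Fk → Prop)
    (hsupp : ∀ (P' : Place K F) (Q : Place k Fk), δ (Finsupp.single P' 1) Q ≠ 0 → R P' Q)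
    (hprin : ∀ D : Divisor K F, Divisor.IsPrincipal D → δ D = 0)
    (hsep : ∀ W : Place K F', ∃ g : F', g ≠ 0 ∧ W.ord g ≠ 0 ∧
      ∀ W', W' ≠ W → W'.ord g ≠ 0 →
        W'.restrictAlong φ hφ ≠ W.restrictAlong φ hφ ∧
          ∀ Q, R (W.restrictAlong φ hφ) Q → ¬ R (W'.restrictAlong φ hφ) Q) :
    δ = 0 := by
  classical
  refine h17_move_rel δ R hsupp fun P => ?_
  obtain ⟨W, hW⟩ := hsurj P
  obtain ⟨g, hg, hWg, hs⟩ := hsep W
  obtain ⟨Dg, hDg, -⟩ := HasPrincipalDivisors.exists_divisor (K := K) g hg
  have hprinD : Divisor.IsPrincipal (Divisor.pushforwardAlong φ hφ Dg) :=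
    Divisor.isPrincipal_pushforwardAlong φ hφ hfin hNF ⟨g, hg, hDg⟩
  refine ⟨Divisor.pushforwardAlong φ hφ Dg, hprin _ hprinD, ?_, ?_⟩
  · -- the value at `P`: only `W` contributes
    have hmem : W ∈ Dg.support := Finsupp.mem_support_iff.mpr (by rw [hDg]; exact hWg)
    rw [h17_pushforwardAlong_apply, Finset.sum_eq_single_of_mem W hmem]
    · rw [if_pos hW]
      exact mul_ne_zero (by rw [hDg]; exact hWg) (by exact_mod_cast hinert W)
    · intro W' hW' hne
      have h1 := (hs W' hne (by rw [← hDg]; exact Finsupp.mem_support_iff.mp hW')).1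
      rw [hW] at h1
      rw [if_neg h1]
  · intro P' hne hP' Q hRP hRP'
    rw [h17_pushforwardAlong_apply] at hP'
    obtain ⟨W', hW'mem, hW'ne⟩ := Finset.exists_ne_zero_of_sum_ne_zero hP'
    have hW'P' : W'.restrictAlong φ hφ = P' := by
      by_contra h
      rw [if_neg h] at hW'ne
      exact hW'ne rfl
    have hWW' : W' ≠ W := by
      rintro rfl
      exact hne (hW'P'.symm.trans hW)
    have h2 := (hs W' hWW' (by rw [← hDg]; exact Finsupp.mem_support_iff.mp hW'mem)).2 Q
    rw [hW, hW'P'] at h2
    exact h2 hRP hRP'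

end Norm

end Fermat.Agent.S37x.Move.H17
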