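import Fermat.Agent.S37x.Move.H17_TopN

/-!
# S37, route N (helper17): the frozen statement from `[RED-M]` at the levels `2 ∣ M`, `3 ∣ M`

`h17_result_of_redOne23` : the frozen statement S37 from

* `hOne2` : `Asm.StRedOne M A` for `ℓ ≠ 2`, `2 ∣ M`, `ℓ ∤ M`;
* `hOne3` : `Asm.StRedOne M A` for `ℓ ≠ 3`, `3 ∣ M`, `ℓ ∤ M`

(the outputs `stRedOne_two`, `stRedOne_three` of the top of `[RED-M]`).  Only `M = 2 * N` for
`ℓ` odd and `M = 3 * N` for `ℓ = 2` are used.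
-/

set_option autoImplicit false
set_option synthInstance.maxHeartbeats 400000
set_option maxHeartbeats 1000000
set_option linter.style.haveILetI false
set_option linter.unusedSectionVars false

open HahnSeries IntermediateField AlgebraicCurve ModularCurve

noncomputable section

namespace Fermat.Agent.S37x.Move.H17

open Fermat.Agent.S37x.Asm

variable (N : ℕ) [NeZero N]

/-- `[RED-M]` at the auxiliary level `h18_base ℓ * N` from `[RED-M]` at the levels divisible by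
`2` (for `ℓ ≠ 2`) and by `3` (for `ℓ ≠ 3`). -/
theorem h17_redOne_base
    (hOne2 : ∀ ℓ : ℕ, ℓ.Prime → ℓ ≠ 2 →
      ∀ A : ValuationSubring (AlgebraicClosure ℚ), A.LiesOverPrime ℓ →
        ∀ (M : ℕ) [NeZero M], 2 ∣ M → ¬ ℓ ∣ M → StRedOne M A)
    (hOne3 : ∀ ℓ : ℕ, ℓ.Prime → ℓ ≠ 3 →
      ∀ A : ValuationSubring (AlgebraicClosure ℚ), A.LiesOverPrime ℓ →
        ∀ (M : ℕ) [NeZero M], 3 ∣ M → ¬ ℓ ∣ M → StRedOne M A)
    (ℓ : ℕ) (hℓ : ℓ.Prime) (hℓN : ¬ ℓ ∣ N)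
    (A : ValuationSubring (AlgebraicClosure ℚ)) (hA : A.LiesOverPrime ℓ) :
    haveI : NeZero (Fermat.Agent.S18x.Asm.h18_base ℓ * N) :=
      Fermat.Agent.S18x.Asm.h18_level_neZero ℓ N
    StRedOne (Fermat.Agent.S18x.Asm.h18_base ℓ * N) A := by
  haveI : NeZero (Fermat.Agent.S18x.Asm.h18_base ℓ * N) :=
    Fermat.Agent.S18x.Asm.h18_level_neZero ℓ N
  have hℓM := Fermat.Agent.S18x.Asm.h18_not_dvd_level hℓ hℓN
  rcases Fermat.Agent.S18x.Asm.h18_base_mem ℓ with h | h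
  · exact hOne2 ℓ hℓ (fun h2 => Fermat.Agent.S18x.Asm.h18_base_ne ℓ (h2.trans h.symm)) A hA _
      (Dvd.intro _ (by rw [h])) hℓM
  · exact hOne3 ℓ hℓ (fun h3 => Fermat.Agent.S18x.Asm.h18_base_ne ℓ (h3.trans h.symm)) A hA _
      (Dvd.intro _ (by rw [h])) hℓM

/-- **`StSpec N p`** from `[RED-M]` at the levels divisible by `2` resp. `3`. -/
theorem h17_stSpec_of_redOne23 (p : ℕ)
    (hOne2 : ∀ ℓ : ℕ, ℓ.Prime → ℓ ≠ 2 →
      ∀ A : ValuationSubring (AlgebraicClosure ℚ), A.LiesOverPrime ℓ →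
        ∀ (M : ℕ) [NeZero M], 2 ∣ M → ¬ ℓ ∣ M → StRedOne M A)
    (hOne3 : ∀ ℓ : ℕ, ℓ.Prime → ℓ ≠ 3 →
      ∀ A : ValuationSubring (AlgebraicClosure ℚ), A.LiesOverPrime ℓ →
        ∀ (M : ℕ) [NeZero M], 3 ∣ M → ¬ ℓ ∣ M → StRedOne M A) :
    StSpec N p :=
  h17_stSpec_of_redOne N p fun ℓ hℓ hℓNp A hA =>
    h17_redOne_base N hOne2 hOne3 ℓ hℓ (fun h => hℓNp (Dvd.dvd.mul_right h p)) A hA

/-- **S37 (frozen statement)** from `[RED-M]` at the levels divisible by `2` resp. `3`. -/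
theorem h17_result_of_redOne23 (p : ℕ) (hcomm : ModularCurve.HeckeOperatorsCommuteBar N)
    (hOne2 : ∀ ℓ : ℕ, ℓ.Prime → ℓ ≠ 2 →
      ∀ A : ValuationSubring (AlgebraicClosure ℚ), A.LiesOverPrime ℓ →
        ∀ (M : ℕ) [NeZero M], 2 ∣ M → ¬ ℓ ∣ M → StRedOne M A)
    (hOne3 : ∀ ℓ : ℕ, ℓ.Prime → ℓ ≠ 3 →
      ∀ A : ValuationSubring (AlgebraicClosure ℚ), A.LiesOverPrime ℓ →
        ∀ (M : ℕ) [NeZero M], 3 ∣ M → ¬ ℓ ∣ M → StRedOne M A) :
    letI := ModularCurve.heckeModuleBar N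
    ∀ (_ : SMulCommClass (AlgebraicClosure ℚ ≃ₐ[ℚ] AlgebraicClosure ℚ) ModularCurve.HeckeAlg
      (ModularCurve.JZero N)),
      ModularCurve.SpecializationExists (K := ℚ) (L := AlgebraicClosure ℚ) N p
        (ModularCurve.JZero N) :=
  result_of N p (h17_stSpec_of_redOne23 N p hOne2 hOne3) hcomm

end Fermat.Agent.S37x.Move.H17
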